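import Fermat.Agent.Mazur.S12.Zero
import Fermat.Agent.Descent.Main

/-!
# S12 from S15

`s12_of`: S12 from S15 and the rational point of order `p` on the isogenous curve.
-/

set_option autoImplicit false
set_option linter.unusedSectionVars false

namespace Fermat.Agent.Mazur.S12

open WeierstrassCurve WeierstrassCurve.Affine WeierstrassCurve.Affine.Point
open Fermat.Agent.Descent

local notation "Qb" => AlgebraicClosure ℚ

/-- The input: behaviour at `2` and the rational point on the isogenous curve. -/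
def PointInput (p : ℕ) : Prop :=
  ∀ {A B : ℤ} {G : GalData p (eZ A B)} {V : VeluOut p (eZ A B) G} (N : NData p A B V.D),
    IsTri p A B →
    (N.A' % 4 = 3 ∧ (32 : ℤ) ∣ N.B' ∧
      padicValRat 2 (V.D 0) = padicValRat 2 (V.D 1) + (p - 1) ∧
      padicValRat 2 (V.D 2) = padicValRat 2 (V.D 1) + (p - 1)) ∧
    ∃ (P : (((freyZ N.A' N.B').map (Int.castRingHom ℚ))⁄Qb).Point) (m : ℕ),
      (∀ σ : Qb ≃ₐ[ℚ] Qb, σ • P = P) ∧ addOrderOf (m • P) = p ∧
      ∃ x y h, P = .some x y h ∧ 4 * x = ((N.Y 0 1 : ℚ) : Qb) ^ 2 ∧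
        (4 * (2 * y + x)) ^ 2 = (((N.Y 0 1 * N.Y 1 1 * N.Y 2 1 : ℚ)) : Qb) ^ 2

/-- irreducibility of `E[p]` for the triples, `p ≥ 17`. -/
theorem irreducible_of {p : ℕ} (hp : p.Prime) (hp17 : 17 ≤ p) (hS15 : S15Prop)
    (hPt : PointInput p) {A B : ℤ} (hT : IsTri p A B) : (freyZ A B).ModRepIsIrreducible p := by
  by_contra hred
  obtain ⟨G⟩ := galInput hp (by omega) A B hT hred
  have hinj : Function.Injective (eZ A B) := by
    have h1 := hT.A0
    have h2 := hT.B0
    have h3 := hT.C0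
    intro i j hij
    fin_cases i <;> fin_cases j <;> simp [eZ] at hij ⊢ <;> omega
  obtain ⟨V⟩ := veluInput hp (by omega) (eZ A B) hinj G
  have hrel : (A + B : ℚ) ^ p * V.D 0 ^ 4 = (B : ℚ) ^ p * V.D 1 ^ 4 + (A : ℚ) ^ p * V.D 2 ^ 4 := by
    have h := V.D_rel
    have hodd : Odd p := hp.odd_of_ne_two (by omega)
    simp only [eZ, Matrix.cons_val_zero, Matrix.cons_val_one, Matrix.cons_val,
      Int.cast_zero, Int.cast_neg, sub_zero, zero_sub, sub_neg_eq_add] at h
    rw [hodd.neg_pow, hodd.neg_pow] at h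
    linear_combination h
  obtain ⟨N⟩ := exists_nData (hp.odd_of_ne_two (by omega)) hT V.D_ne hrel
  obtain ⟨⟨hA4, hB32, h0, h2⟩, hpt⟩ := hPt N hT
  exact false_of_val hp (by omega) hT h0 h2 fun q hq hq2 a b =>
    N.val_D_eq hS15 hp hp17 hT hA4 hB32 hpt hq hq2 a b

/-- **S12 from S15.** -/
theorem s12_of (hS15 : S15Prop)
    (hPt : ∀ p : ℕ, p.Prime → 17 ≤ p → PointInput p) (P : FreyPackage) (hp : 17 ≤ P.p) :
    ¬ HasGaloisStableCofixedLine (K := AlgebraicClosure ℚ) ℚ P.freyCurve P.p := by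
  rintro ⟨N, hN, hb, ht, -⟩
  have h1 := irreducible_of P.pp hp hS15 (hPt P.p P.pp hp) (isTri_frey P)
  rw [freyZ_frey, WeierstrassCurve.ModRepIsIrreducible, FreyPackage.AgentFrey.map_freyCurveInt]
    at h1
  rcases h1.2 N hN with h2 | h2
  · exact hb h2
  · exact ht h2

end Fermat.Agent.Mazur.S12
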