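import Fermat.Agent.Descent.LocOdd
import Fermat.Agent.Descent.Mu

/-!
# The component index at a multiplicative place: refinements

Refinements of `Descent.exists_index_xc`, `Descent.mult_core` used in the deduction of the absence of
cofixed lines (Mazur's theorem for Frey curves) from the statement on rational torsion points.
-/

set_option autoImplicit false
set_option linter.unusedSectionVars false

namespace Fermat.Agent.Mazur.S12

open WeierstrassCurve WeierstrassCurve.Affine Fermat.Agent.Descent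
open Fermat.Agent.ECRed hiding xc
open Fermat.Agent.LOC Fermat.Agent.LOC.TatePhi Fermat.Agent.LOC.TateHom

variable {K Γ₀ : Type*} [Field K] [LinearOrderedCommGroupWithZero Γ₀]
  {v : Valuation K Γ₀} {c : K}

/-- In residue characteristic `p`, `w ^ p` close to `1` implies `w` close to `1`. -/
lemma sub_one_lt_of_pow {p : ℕ} (hp : p.Prime) (hvp : v (p : K) < 1) {w : K} (hw : v w ≤ 1)
    (h : v (w ^ p - 1) < 1) : v (w - 1) < 1 := by
  have hp0 : p ≠ 0 := hp.ne_zero
  obtain ⟨r, hr⟩ := exists_add_pow_prime_eq hp (⟨w, hw⟩ - 1 : v.integer) 1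
  have hr' := congrArg (fun z : v.integer => (z : K)) hr
  simp only [sub_add_cancel, one_pow, mul_one] at hr'
  push_cast at hr'
  have h1 : (w - 1) ^ p = (w ^ p - 1) - ((w - 1) * (r : K)) * p := by
    linear_combination -hr'
  have h2 : v ((w - 1) ^ p) < 1 := by
    rw [h1]
    refine v.map_sub_lt h ?_
    refine v_imul_lt ?_ hvp
    exact v_imul_le ((v.map_sub _ _).trans (max_le hw v.map_one.le)) r.2
  rw [map_pow] at h2
  by_contra hge
  push Not at hge
  exact absurd h2 (not_lt.mpr (one_le_pow₀ hge))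

variable [DecidableEq K]

/-- In residue characteristic `p`, the `p`-torsion points of the identity component are in the
kernel of reduction. -/
lemma inKer_of_idx_eq_zero (hc1 : v c < 1) (hc : c ≠ 0) {p : ℕ} (hp : p.Prime)
    (hvp : v (p : K) < 1) {P : (nf c).toAffine.Point} (hP : p • P = 0)
    (h0 : idx hc1 hc p P = 0) : InKer v P := by
  have hvc : v c ≠ 0 := (Valuation.ne_zero_iff v).mpr hc
  have hvc0 : 0 < v c := zero_lt_iff.mpr hvc
  obtain ⟨n, hn⟩ := IsIdx.exists_of_torsion (hc1 := hc1) (hc := hc) hP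
  have h1 := idx_eq hc1 hc hn
  rw [h0] at h1
  obtain ⟨k, hk⟩ := (ZMod.intCast_zmod_eq_zero_iff_dvd n p).mp h1.symm
  obtain ⟨u, hu, h2, h3⟩ := hn
  have hc' : (-c) ^ k ≠ 0 := zpow_ne_zero _ (neg_ne_zero.mpr hc)
  have hvu : v u = v c ^ k := by
    refine (pow_left_inj₀ zero_le (zpow_pos hvc0 k).le hp.ne_zero).mp ?_
    rw [h3, hk, ← zpow_natCast, ← zpow_mul, mul_comm]
  set w := u / (-c) ^ k with hw
  have hw0 : w ≠ 0 := div_ne_zero hu hc'
  have hvw : v w = 1 := by
    rw [hw, map_div₀, map_zpow₀, Valuation.map_neg, hvu, div_self (zpow_ne_zero _ hvc)]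
  have hcls : cls v c w = cls v c u := by
    rw [hw, cls_div hu hc']
    have : cls v c ((-c) ^ k) = 1 := (cls_eq_one_iff hc').mpr ⟨k, 1, one_mem _, by simp⟩
    rw [this, div_one]
  have h4 : cls v c (w ^ p) = 1 := by
    rw [cls_pow hw0, hcls]
    have h5 := congrArg (phi hc1 hc) hP
    rw [map_nsmul, map_zero, h2, ← ofMul_pow] at h5
    exact Additive.ofMul.injective h5
  obtain ⟨m, s, hs, h6⟩ := (cls_eq_one_iff (pow_ne_zero p hw0)).mp h4
  have h7 : v c ^ m = v c ^ (0 : ℤ) := by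
    have h8 := congrArg v h6
    rw [map_pow, hvw, one_pow, map_mul, v_eq_one_of_mem_oneUnits hs, one_mul, map_zpow₀,
      Valuation.map_neg] at h8
    rw [zpow_zero]; exact h8.symm
  have hm : m = 0 := Descent.zpow_inj_of_lt hvc hc1 h7
  rw [hm, zpow_zero, mul_one] at h6
  have h8 : v (w ^ p - 1) < 1 := by rw [h6]; exact hs
  have h9 := sub_one_lt_of_pow hp hvp hvw.le h8
  rw [← phi_eq_zero_iff hc1 hc, h2]
  have h10 : cls v c u = 1 := by
    rw [← hcls, cls_eq_one_iff hw0]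
    exact ⟨0, Units.mk0 w hw0, h9, by simp⟩
  rw [h10]; rfl

lemma inKer_of_cidx_eq_zero {W : WeierstrassCurve K} {x₀ y₀ α β : K}
    (h : NodeCentre v W x₀ y₀ α β) (hΔ : W.Δ ≠ 0) {p : ℕ} (hp : p.Prime)
    (hvp : v (p : K) < 1) {P : W.toAffine.Point} (hP : p • P = 0)
    (h0 : cidx h hΔ p P = 0) : InKer v P := by
  rw [← h.inKer_equiv_iff]
  exact inKer_of_idx_eq_zero h.v_c_lt_one (h.c_ne_zero hΔ) hp hvp
    (by rw [← map_nsmul, hP, map_zero]) h0

/-- `Descent.exists_index_xc` with the information in residue characteristic `p`. -/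
theorem exists_index' [IsAlgClosed K] {W : WeierstrassCurve K} {e : Fin 3 → K} {p : ℕ}
    (hW : W = leg e) (hv2 : v (2 : K) = 1)
    (h3K : (3 : K) ≠ 0) (he : ∀ i, v (e i) ≤ 1) (i : Fin 3) (h1 : v (e i - e (i + 1)) = 1)
    (h2 : v (e i - e (i + 2)) = 1) (h3 : v (e (i + 1) - e (i + 2)) < 1)
    (h30 : e (i + 1) ≠ e (i + 2)) (hp : p.Prime) (hp2 : Odd p) :
    ∃ ι : W.toAffine.Point → ZMod p, ι 0 = 0 ∧
      (∀ P Q, p • P = 0 → p • Q = 0 → ι (P + Q) = ι P + ι Q) ∧
      ∀ P, P ≠ 0 → p • P = 0 →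
        (ι P = 0 → ∀ l l', v (xc P - e l) = v (xc P - e l')) ∧
        (v (xc P) ≤ 1 → v (xc P - e i) = 1) ∧
        (ι P ≠ 0 → v (xc P) ≤ 1) ∧
        ((ι P ≠ 0 ∨ v (xc P) ≤ 1) →
          v (xc P - e (i + 1)) ^ p = v (e (i + 1) - e (i + 2)) ^ (2 * (ι P).valMinAbs.natAbs) ∧
          v (xc P - e (i + 2)) ^ p = v (e (i + 1) - e (i + 2)) ^
            (2 * (ι P).valMinAbs.natAbs)) ∧
        (v (p : K) < 1 → ι P = 0 → 1 < v (xc P)) := by
  subst hW
  have h2K : (2 : K) ≠ 0 := by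
    rw [← Valuation.pos_iff (v := v), hv2]; exact one_pos
  have hγ0 : 0 < v (e (i + 1) - e (i + 2)) := by
    rw [Valuation.pos_iff]; exact sub_ne_zero.mpr h30
  have hp0 : p ≠ 0 := hp.ne_zero
  have hvΔ := v_leg_Δ hv2 i h1 h2 h3
  have hΔ0 : (leg e).Δ ≠ 0 := by
    rw [← Valuation.pos_iff (v := v), hvΔ]; exact pow_pos hγ0 2
  obtain ⟨x₀, y₀, α, β, hN⟩ := exists_nodeCentre_of_Δ h2K h3K (intCoeff_leg he)
    (v_leg_c₄ hv2 i h1 h2 h3) (by rw [hvΔ]; exact pow_lt_one₀ zero_le h3 two_ne_zero)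
  obtain ⟨hc1, hc2⟩ := v_centre_sub hv2 he i h1 h2 h3 hN
  refine ⟨cidx hN hΔ0 p, cidx_zero hN hΔ0, fun P Q hP hQ => cidx_add hN hΔ0 hP hQ,
    fun P hP0 hP => ?_⟩
  rcases P with _ | ⟨x, y, h⟩
  · exact absurd rfl hP0
  have hunit := fun hx => v_sub_eq_one hv2 he i h1 h2 hp2 h hP hx
  have hlt1 := lt_of_le_of_lt hc1 h3
  have hlt2 := lt_of_le_of_lt hc2 h3
  have hz : cidx hN hΔ0 p (.some x y h) = 0 → v x ≤ 1 → ∀ l, v (x - e l) = 1 := by
    intro h0 hx
    have hge := one_le_of_cidx_eq_zero hN hΔ0 hp2 h hP h0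
    have heq : v (x - x₀) = 1 := le_antisymm ((v.map_sub _ _).trans (max_le hx hN.int_x)) hge
    have g1 : v (x - e (i + 1)) = 1 := by
      rw [show x - e (i + 1) = (x - x₀) + (x₀ - e (i + 1)) by ring,
        v.map_add_eq_of_lt_left (by rw [heq]; exact hlt1), heq]
    have g2 : v (x - e (i + 2)) = 1 := by
      rw [show x - e (i + 2) = (x - x₀) + (x₀ - e (i + 2)) by ring,
        v.map_add_eq_of_lt_left (by rw [heq]; exact hlt2), heq]
    have g0 := hunit hx
    intro l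
    rcases fin3_cases i l with rfl | rfl | rfl
    · exact g0
    · exact g1
    · exact g2
  have hnz : cidx hN hΔ0 p (.some x y h) ≠ 0 → v x ≤ 1 ∧
      v (x - e (i + 1)) ^ p = v (e (i + 1) - e (i + 2)) ^
        (2 * (cidx hN hΔ0 p (.some x y h)).valMinAbs.natAbs) ∧
      v (x - e (i + 2)) ^ p = v (e (i + 1) - e (i + 2)) ^
        (2 * (cidx hN hΔ0 p (.some x y h)).valMinAbs.natAbs) := by
    intro h0
    obtain ⟨g1, g2⟩ := v_of_cidx_ne_zero hN hΔ0 hp2 h hP h0
    have hx : v x ≤ 1 := by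
      rw [show x = (x - x₀) + x₀ by ring]
      exact v.map_add_le g1.le hN.int_x
    rw [hvΔ, ← pow_mul] at g2
    have : NeZero p := ⟨hp0⟩
    set m := (cidx hN hΔ0 p (.some x y h)).valMinAbs.natAbs with hm
    have hmp : 2 * m < p := by
      have := ZMod.valMinAbs_natAbs_eq_min (cidx hN hΔ0 p (.some x y h))
      have h5 := ZMod.val_lt (cidx hN hΔ0 p (.some x y h))
      obtain ⟨k, hk⟩ := hp2
      omega
    have hgt : v (e (i + 1) - e (i + 2)) < v (x - x₀) := by
      rw [← pow_lt_pow_iff_left₀ zero_le zero_le hp0, g2]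
      exact pow_lt_pow_right_of_lt_one₀ hγ0 h3 hmp
    refine ⟨hx, ?_, ?_⟩
    · rw [show x - e (i + 1) = (x - x₀) + (x₀ - e (i + 1)) by ring,
        v.map_add_eq_of_lt_left (lt_of_le_of_lt hc1 hgt), g2]
    · rw [show x - e (i + 2) = (x - x₀) + (x₀ - e (i + 2)) by ring,
        v.map_add_eq_of_lt_left (lt_of_le_of_lt hc2 hgt), g2]
  refine ⟨?_, hunit, fun h0 => (hnz h0).1, ?_, ?_⟩
  · intro h0 l l'
    change v (x - e l) = v (x - e l')
    rcases le_or_gt (v x) 1 with hx | hx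
    · rw [hz h0 hx, hz h0 hx]
    · rw [v_sub_of_one_lt he hx, v_sub_of_one_lt he hx]
  · intro h0
    change v (x - e (i + 1)) ^ p = _ ∧ v (x - e (i + 2)) ^ p = _
    by_cases hzz : cidx hN hΔ0 p (.some x y h) = 0
    · have hx : v x ≤ 1 := by
        rcases h0 with h0 | h0
        · exact absurd hzz h0
        · exact h0
      rw [hz hzz hx, hz hzz hx, hzz]
      simp
    · exact (hnz hzz).2
  · intro hvp h0
    have := inKer_of_cidx_eq_zero hN hΔ0 hp hvp hP h0
    rwa [inKer_some] at this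

/-- `4 ∑ |z| = p² - 1` -/
lemma sum_natAbs {p : ℕ} [Fact p.Prime] (hp2 : Odd p) :
    4 * ∑ z : ZMod p, z.valMinAbs.natAbs = p ^ 2 - 1 := by
  rw [← sum_mu hp2]
  have h : ∀ z : ZMod p, z.valMinAbs.natAbs = muZ p z := fun z => by
    rw [ZMod.valMinAbs_natAbs_eq_min, muZ]
  rw [Finset.sum_congr rfl fun z _ => h z, ← sum_range_zmod (fun z => muZ p z)]
  congr 1
  refine Finset.sum_congr rfl fun j _ => ?_
  rw [mu_eq_muZ]; push_cast; rfl

/-- The multiplicative case: valuations of the products over the cosets. -/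
theorem mult_core' [IsAlgClosed K] {W : WeierstrassCurve K} {e : Fin 3 → K} {p : ℕ}
    (hW : W = leg e) (hv2 : v (2 : K) = 1)
    (h3K : (3 : K) ≠ 0) (he : ∀ i, v (e i) ≤ 1) (i : Fin 3) (h1 : v (e i - e (i + 1)) = 1)
    (h2 : v (e i - e (i + 2)) = 1) (h3 : v (e (i + 1) - e (i + 2)) < 1)
    (h30 : e (i + 1) ≠ e (i + 2)) (hp : p.Prime) (hp2 : p ≠ 2) {g r : W.toAffine.Point}
    (hg : p • g = 0) (hg0 : g ≠ 0) (hr : p • r = 0) (hrg : r ∉ AddSubgroup.zmultiples g)
    (hint : ∀ k j : ℕ, ¬ p ∣ k → v (xc (k • r + j • g)) ≤ 1) :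
    (¬ v (p : K) < 1 ∧
      (∀ k, ¬ p ∣ k → ∀ l, ∏ j ∈ Finset.range p, v (xc (k • r + j • g) - e l) =
        ∏ j ∈ Finset.Icc 1 (p - 1), v (xc (j • g) - e l)) ∧
      ∏ j ∈ Finset.Icc 1 (p - 1), v (xc (j • g) - e i) = 1 ∧
      (∏ j ∈ Finset.Icc 1 (p - 1), v (xc (j • g) - e (i + 1))) ^ (4 * p) =
        v (e (i + 1) - e (i + 2)) ^ (2 * (p ^ 2 - 1)) ∧
      (∏ j ∈ Finset.Icc 1 (p - 1), v (xc (j • g) - e (i + 2))) ^ (4 * p) =
        v (e (i + 1) - e (i + 2)) ^ (2 * (p ^ 2 - 1))) ∨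
    ((∀ l l', ∏ j ∈ Finset.Icc 1 (p - 1), v (xc (j • g) - e l) =
      ∏ j ∈ Finset.Icc 1 (p - 1), v (xc (j • g) - e l')) ∧
      ∃ m : ℕ → ℕ, ∀ k, ¬ p ∣ k →
        ∏ j ∈ Finset.range p, v (xc (k • r + j • g) - e i) = 1 ∧
        ∏ j ∈ Finset.range p, v (xc (k • r + j • g) - e (i + 1)) =
          v (e (i + 1) - e (i + 2)) ^ (2 * m k) ∧
        ∏ j ∈ Finset.range p, v (xc (k • r + j • g) - e (i + 2)) =
          v (e (i + 1) - e (i + 2)) ^ (2 * m k)) := by
  have : Fact p.Prime := ⟨hp⟩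
  have hodd : Odd p := hp.odd_of_ne_two hp2
  obtain ⟨ι, hι0, hadd, hι⟩ := exists_index' hW hv2 h3K he i h1 h2 h3 h30 hp hodd
  have hg' := fun j => nsmul_torsion hg j
  have hr' := fun k => nsmul_torsion hr k
  have hidx : ∀ k j : ℕ, ι (k • r + j • g) = k * ι r + j * ι g := fun k j => by
    rw [hadd _ _ (hr' k) (hg' j), index_nsmul hι0 hadd hr, index_nsmul hι0 hadd hg]
  have htor : ∀ k j : ℕ, p • (k • r + j • g) = 0 := fun k j => by
    rw [nsmul_add, hr', hg', add_zero]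
  set γ := v (e (i + 1) - e (i + 2)) with hγ
  set F : ZMod p → Γ₀ := fun z => γ ^ (2 * z.valMinAbs.natAbs) with hF
  have hF0 : F 0 = 1 := by simp [hF]
  have hcoset : ∀ k : ℕ, ¬ p ∣ k → ∀ j : ℕ, v (xc (k • r + j • g) - e i) = 1 ∧
      v (xc (k • r + j • g) - e (i + 1)) ^ p = F (k * ι r + j * ι g) ∧
      v (xc (k • r + j • g) - e (i + 2)) ^ p = F (k * ι r + j * ι g) := by
    intro k hk j
    obtain ⟨-, g2, -, g4, -⟩ := hι _ (coset_ne_zero hp hr hrg hk j) (htor k j)
    have h5 := g4 (Or.inr (hint k j hk))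
    rw [hidx] at h5
    exact ⟨g2 (hint k j hk), h5⟩
  by_cases hb : ι g = 0
  · right
    refine ⟨fun l l' => ?_, fun k => ((k : ZMod p) * ι r).valMinAbs.natAbs, fun k hk => ?_⟩
    · refine Finset.prod_congr rfl fun j hj => ?_
      rw [Finset.mem_Icc] at hj
      have hj0 := nsmul_ne_zero_of_lt hp hg hg0 hj.1 hj.2
      exact (hι _ hj0 (hg' j)).1 (by rw [index_nsmul hι0 hadd hg, hb, mul_zero]) l l'
    · have hc := hcoset k hk
      simp only [hb, mul_zero, add_zero] at hc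
      refine ⟨Finset.prod_eq_one fun j _ => (hc j).1, ?_, ?_⟩
      · have hconst : ∀ j, v (xc (k • r + j • g) - e (i + 1)) =
            v (xc (k • r + 0 • g) - e (i + 1)) := fun j => by
          refine (pow_left_inj₀ zero_le zero_le hp.ne_zero).mp ?_
          rw [(hc j).2.1, (hc 0).2.1]
        rw [Finset.prod_congr rfl fun j _ => hconst j, Finset.prod_const, Finset.card_range,
          (hc 0).2.1]
      · have hconst : ∀ j, v (xc (k • r + j • g) - e (i + 2)) =
            v (xc (k • r + 0 • g) - e (i + 2)) := fun j => by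
          refine (pow_left_inj₀ zero_le zero_le hp.ne_zero).mp ?_
          rw [(hc j).2.2, (hc 0).2.2]
        rw [Finset.prod_congr rfl fun j _ => hconst j, Finset.prod_const, Finset.card_range,
          (hc 0).2.2]
  · left
    have hN : ∀ j ∈ Finset.Icc 1 (p - 1), v (xc (j • g) - e i) = 1 ∧
        v (xc (j • g) - e (i + 1)) ^ p = F (0 + j * ι g) ∧
        v (xc (j • g) - e (i + 2)) ^ p = F (0 + j * ι g) := by
      intro j hj
      rw [Finset.mem_Icc] at hj
      have hj0 := nsmul_ne_zero_of_lt hp hg hg0 hj.1 hj.2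
      obtain ⟨-, g2, g3, g4, -⟩ := hι _ hj0 (hg' j)
      have hidx' : ι (j • g) = j * ι g := index_nsmul hι0 hadd hg j
      have hne : ι (j • g) ≠ 0 := by
        rw [hidx']
        refine mul_ne_zero ?_ hb
        rw [ne_eq, ZMod.natCast_eq_zero_iff]
        intro hd
        have := Nat.le_of_dvd (by omega) hd
        have := hp.pos
        omega
      have h5 := g4 (Or.inl hne)
      rw [hidx'] at h5
      rw [zero_add]
      exact ⟨g2 (g3 hne), h5⟩
    have hprodN : ∏ j ∈ Finset.Icc 1 (p - 1), F (0 + j * ι g) = ∏ z : ZMod p, F z := by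
      rw [← prod_coset F 0 hb, ← prod_Icc_mul hp.pos, Nat.cast_zero, zero_mul, add_zero, hF0,
        one_mul]
    have hS : (∏ z : ZMod p, F z) ^ 4 = γ ^ (2 * (p ^ 2 - 1)) := by
      rw [hF, Finset.prod_pow_eq_pow_sum, ← Finset.mul_sum, ← pow_mul, ← sum_natAbs hodd]
      congr 1; ring
    refine ⟨?_, ?_, Finset.prod_eq_one fun j hj => (hN j hj).1, ?_, ?_⟩
    · -- residue characteristic `p`
      intro hvp
      set j := (-(ι r) / ι g).val with hj
      have hne : ¬ p ∣ 1 := hp.one_lt.ne' ∘ Nat.dvd_one.mp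
      obtain ⟨-, -, -, -, g5⟩ := hι _ (coset_ne_zero hp hr hrg hne j) (htor 1 j)
      have h6 : ι (1 • r + j • g) = 0 := by
        rw [hidx, hj, ZMod.natCast_zmod_val, div_mul_cancel₀ _ hb]; simp
      exact absurd (hint 1 j hne) (not_le.mpr (g5 hvp h6))
    · intro k hk l
      rcases fin3_cases i l with rfl | rfl | rfl
      · rw [Finset.prod_eq_one fun j _ => (hcoset k hk j).1,
          Finset.prod_eq_one fun j hj => (hN j hj).1]
      · refine (pow_left_inj₀ zero_le zero_le hp.ne_zero).mp ?_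
        rw [← Finset.prod_pow, ← Finset.prod_pow,
          Finset.prod_congr rfl fun j _ => (hcoset k hk j).2.1,
          Finset.prod_congr rfl fun j hj => (hN j hj).2.1, hprodN, prod_coset F _ hb]
      · refine (pow_left_inj₀ zero_le zero_le hp.ne_zero).mp ?_
        rw [← Finset.prod_pow, ← Finset.prod_pow,
          Finset.prod_congr rfl fun j _ => (hcoset k hk j).2.2,
          Finset.prod_congr rfl fun j hj => (hN j hj).2.2, hprodN, prod_coset F _ hb]
    · rw [mul_comm 4 p, pow_mul, ← Finset.prod_pow,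
        Finset.prod_congr rfl fun j hj => (hN j hj).2.1, hprodN, hS]
    · rw [mul_comm 4 p, pow_mul, ← Finset.prod_pow,
        Finset.prod_congr rfl fun j hj => (hN j hj).2.2, hprodN, hS]

end Fermat.Agent.Mazur.S12
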