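import Fermat.Agent.Mazur.S12.Index

/-!
# Local structure at the odd primes of the output of Vélu's construction
-/

set_option autoImplicit false
set_option linter.unusedSectionVars false

namespace Fermat.Agent.Mazur.S12

open WeierstrassCurve WeierstrassCurve.Affine Fermat.Agent.Descent
open Fermat.Agent.ECRed hiding xc

local notation "Qb" => AlgebraicClosure ℚ

section

variable {p : ℕ} {A B : ℤ} {q : ℕ}

/-- `LocGood` with the explicit constant. -/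
theorem locGood' (hp : p.Prime) (hp2 : p ≠ 2) (G : GalData p (eZ A B))
    (V : VeluOut p (eZ A B) G) (hq : q.Prime) (hq2 : q ≠ 2)
    (hnd : ¬ (q : ℤ) ∣ A * B * (A + B)) :
    (∀ a b, padicValRat q (V.D a) = padicValRat q (V.D b)) ∧
      ∀ i k, ¬ p ∣ k → padicValRat q (V.U i k) = - padicValRat q (V.D 0) := by
  obtain ⟨𝔓, h𝔓⟩ := Fermat.Agent.FrobExists.exists_liesOverPrime Qb hq
  have hv2 := v_two_eq_one h𝔓 hq hq2
  have hodd : Odd p := hp.odd_of_ne_two hp2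
  have hW := baseChange_leg (eZ A B)
  have he : ∀ i, 𝔓.valuation (((eZ A B i : ℤ) : Qb)) ≤ 1 := fun i => v_int_le_one _
  have hA : ¬ (q : ℤ) ∣ A := fun h => hnd (Dvd.dvd.mul_right (Dvd.dvd.mul_right h _) _)
  have hB : ¬ (q : ℤ) ∣ B := fun h => hnd (Dvd.dvd.mul_right (Dvd.dvd.mul_left h _) _)
  have hC : ¬ (q : ℤ) ∣ A + B := fun h => hnd (Dvd.dvd.mul_left h _)
  have hne : ∀ i : Fin 3, 𝔓.valuation (((eZ A B i : ℤ) : Qb) - ((eZ A B (i + 1) : ℤ) : Qb)) = 1 := by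
    intro i
    rw [← Int.cast_sub]
    refine v_int_ne h𝔓 hq ?_
    fin_cases i <;> simp [eZ] <;> assumption
  have hcore := fun {P : ((leg (fun i => (eZ A B i : ℚ)))⁄Qb).Point} (h0 : P ≠ 0)
    (h1 : p • P = 0) => good_core hW hv2 he hne hodd h0 h1
  have hD : ∀ a b, 𝔓.valuation ((V.D a : ℚ) : Qb) = 𝔓.valuation ((V.D b : ℚ) : Qb) := by
    intro a b
    have h1 := congrArg 𝔓.valuation (V.D_sq a)
    have h2 := congrArg 𝔓.valuation (V.D_sq b)
    rw [map_pow, map_prod] at h1 h2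
    refine (pow_left_inj₀ zero_le zero_le two_ne_zero).mp ?_
    rw [h1, h2]
    refine Finset.prod_congr rfl fun j hj => ?_
    rw [Finset.mem_Icc] at hj
    exact (hcore (nsmul_ne_zero_of_lt hp G.hg G.hg0 hj.1 hj.2) (nsmul_torsion G.hg j)).2 a b
  have hD' : ∀ a b, padicValRat q (V.D a) = padicValRat q (V.D b) := by
    intro a b
    refine zpow_v_inj hq h𝔓 ?_
    rw [← v_ratCast hq h𝔓 (V.D_ne a), ← v_ratCast hq h𝔓 (V.D_ne b)]
    exact hD a b
  refine ⟨hD', fun i k hk => ?_⟩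
  have h1 := congrArg 𝔓.valuation (V.U_spec i k hk)
  rw [map_mul, map_pow, map_pow, map_prod, Finset.prod_eq_one fun j _ => ?_] at h1
  · have h2 := mul_eq_of_sq (c := (1 : 𝔓.ValueGroup)) (m := 0) (by rw [h1, one_pow])
    rw [v_ratCast hq h𝔓 (V.U_ne i k hk), v_ratCast hq h𝔓 (V.D_ne i), pow_zero,
      ← zpow_add₀ (v_q_pos hq h𝔓).ne', ← zpow_zero (𝔓.valuation (q : Qb))] at h2
    have h3 := zpow_v_inj hq h𝔓 h2
    rw [hD' 0 i]
    omega
  · have h0 := coset_ne_zero hp G.hr G.hrg hk j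
    exact (hcore h0 (by rw [nsmul_add, nsmul_torsion G.hr, nsmul_torsion G.hg, add_zero])).1
      (v_xc_le_one hv2 G hk j) i

/-- `LocMult` with more information. -/
theorem locMult' (hp : p.Prime) (hp2 : p ≠ 2) (hT : IsTri p A B) (G : GalData p (eZ A B))
    (V : VeluOut p (eZ A B) G) (hq : q.Prime) (hq2 : q ≠ 2) (i : Fin 3)
    (hd : (q : ℤ) ∣ eZ A B (i + 1) - eZ A B (i + 2)) :
    ((∀ a b, padicValRat q (V.D a) = padicValRat q (V.D b)) ∧
      ∃ m : ℕ → ℕ, ∀ k, ¬ p ∣ k → padicValRat q (V.U i k) = - padicValRat q (V.D 0) ∧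
        padicValRat q (V.U (i + 1) k) = - padicValRat q (V.D 0) +
          m k * padicValInt q (eZ A B (i + 1) - eZ A B (i + 2)) ∧
        padicValRat q (V.U (i + 2) k) = - padicValRat q (V.D 0) +
          m k * padicValInt q (eZ A B (i + 1) - eZ A B (i + 2))) ∨
    (q ≠ p ∧ (∀ l k, ¬ p ∣ k → padicValRat q (V.U l k) = 0) ∧ padicValRat q (V.D i) = 0 ∧
      4 * p * padicValRat q (V.D (i + 1)) =
        (p ^ 2 - 1) * padicValInt q (eZ A B (i + 1) - eZ A B (i + 2)) ∧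
      4 * p * padicValRat q (V.D (i + 2)) =
        (p ^ 2 - 1) * padicValInt q (eZ A B (i + 1) - eZ A B (i + 2))) := by
  obtain ⟨𝔓, h𝔓⟩ := Fermat.Agent.FrobExists.exists_liesOverPrime Qb hq
  have hv2 := v_two_eq_one h𝔓 hq hq2
  have hW := baseChange_leg (eZ A B)
  have he : ∀ i, 𝔓.valuation (((eZ A B i : ℤ) : Qb)) ≤ 1 := fun i => v_int_le_one _
  obtain ⟨hn1, hn2⟩ := not_dvd_of_dvd hT hq i hd
  have h1 : 𝔓.valuation (((eZ A B i : ℤ) : Qb) - ((eZ A B (i + 1) : ℤ) : Qb)) = 1 := by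
    rw [← Int.cast_sub]; exact v_int_ne h𝔓 hq hn1
  have h2 : 𝔓.valuation (((eZ A B i : ℤ) : Qb) - ((eZ A B (i + 2) : ℤ) : Qb)) = 1 := by
    rw [← Int.cast_sub]; exact v_int_ne h𝔓 hq hn2
  have h3 : 𝔓.valuation (((eZ A B (i + 1) : ℤ) : Qb) - ((eZ A B (i + 2) : ℤ) : Qb)) < 1 := by
    rw [← Int.cast_sub]; exact valuation_int_lt_one 𝔓 h𝔓 hd
  have h30 : ((eZ A B (i + 1) : ℤ) : Qb) ≠ ((eZ A B (i + 2) : ℤ) : Qb) := by
    intro h
    exact eZ_ne hT i (sub_eq_zero.mpr (by exact_mod_cast h))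
  have hγ : 𝔓.valuation (((eZ A B (i + 1) : ℤ) : Qb) - ((eZ A B (i + 2) : ℤ) : Qb)) =
      𝔓.valuation (q : Qb) ^ padicValInt q (eZ A B (i + 1) - eZ A B (i + 2)) := by
    rw [← Int.cast_sub, v_intCast hq h𝔓 (eZ_ne hT i)]
  have hcore := mult_core' hW hv2 (by norm_num) he i h1 h2 h3 h30 hp hp2 G.hg G.hg0 G.hr G.hrg
    (fun k j hk => v_xc_le_one hv2 G hk j)
  have hq0 := (v_q_pos hq h𝔓 (L := Qb)).ne'
  have hU : ∀ l k, ¬ p ∣ k → 𝔓.valuation ((V.U l k : ℚ) : Qb) ^ 2 *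
      𝔓.valuation ((V.D l : ℚ) : Qb) ^ 2 = ∏ j ∈ Finset.range p,
        𝔓.valuation (xc (k • G.r + j • G.g) - ((eZ A B l : ℤ) : Qb)) := by
    intro l k hk
    have h1 := congrArg 𝔓.valuation (V.U_spec l k hk)
    rwa [map_mul, map_pow, map_pow, map_prod] at h1
  have hD : ∀ l, 𝔓.valuation ((V.D l : ℚ) : Qb) ^ 2 = ∏ j ∈ Finset.Icc 1 (p - 1),
        𝔓.valuation (xc (j • G.g) - ((eZ A B l : ℤ) : Qb)) := by
    intro l
    have h1 := congrArg 𝔓.valuation (V.D_sq l)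
    rwa [map_pow, map_prod] at h1
  rcases hcore with ⟨hvp, hc, hDi, hD1, hD2⟩ | ⟨hc1, m, hc2⟩
  · right
    refine ⟨?_, ?_, ?_, ?_, ?_⟩
    · rintro rfl
      exact hvp (v_q_lt_one hq h𝔓)
    · intro l k hk
      have h4 := hU l k hk
      rw [hc k hk l, ← hD l] at h4
      have hD0 : 𝔓.valuation ((V.D l : ℚ) : Qb) ^ 2 ≠ 0 := by
        refine pow_ne_zero _ ?_
        rw [Valuation.ne_zero_iff]
        exact_mod_cast V.D_ne l
      have h5 : 𝔓.valuation ((V.U l k : ℚ) : Qb) ^ 2 = 1 ^ 2 := by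
        rw [one_pow]
        exact mul_right_cancel₀ hD0 (by rw [one_mul]; exact h4)
      have h6 := (pow_left_inj₀ zero_le zero_le two_ne_zero).mp h5
      rw [v_ratCast hq h𝔓 (V.U_ne l k hk), ← zpow_zero (𝔓.valuation (q : Qb))] at h6
      exact zpow_v_inj hq h𝔓 h6
    · rw [← hD i] at hDi
      have h6 := (pow_left_inj₀ zero_le zero_le two_ne_zero).mp (hDi.trans (one_pow 2).symm)
      rw [v_ratCast hq h𝔓 (V.D_ne i), ← zpow_zero (𝔓.valuation (q : Qb))] at h6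
      exact zpow_v_inj hq h𝔓 h6
    · rw [← hD (i + 1), hγ, v_ratCast hq h𝔓 (V.D_ne _), ← zpow_natCast, ← zpow_natCast,
        ← zpow_natCast, ← zpow_natCast, ← zpow_mul, ← zpow_mul, ← zpow_mul] at hD1
      have h6 := zpow_v_inj hq h𝔓 hD1
      have h7 : 1 ≤ p ^ 2 := Nat.one_le_pow _ _ hp.pos
      push_cast [h7] at h6
      linarith
    · rw [← hD (i + 2), hγ, v_ratCast hq h𝔓 (V.D_ne _), ← zpow_natCast, ← zpow_natCast,
        ← zpow_natCast, ← zpow_natCast, ← zpow_mul, ← zpow_mul, ← zpow_mul] at hD2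
      have h6 := zpow_v_inj hq h𝔓 hD2
      have h7 : 1 ≤ p ^ 2 := Nat.one_le_pow _ _ hp.pos
      push_cast [h7] at h6
      linarith
  · left
    have hD' : ∀ a b, padicValRat q (V.D a) = padicValRat q (V.D b) := by
      intro a b
      refine zpow_v_inj hq h𝔓 ?_
      rw [← v_ratCast hq h𝔓 (V.D_ne a), ← v_ratCast hq h𝔓 (V.D_ne b)]
      refine (pow_left_inj₀ zero_le zero_le two_ne_zero).mp ?_
      rw [hD a, hD b]
      exact hc1 a b
    have key : ∀ l k (hk : ¬ p ∣ k) (n : ℕ), ∏ j ∈ Finset.range p,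
        𝔓.valuation (xc (k • G.r + j • G.g) - ((eZ A B l : ℤ) : Qb)) =
          𝔓.valuation (((eZ A B (i + 1) : ℤ) : Qb) - ((eZ A B (i + 2) : ℤ) : Qb)) ^ (2 * n) →
        padicValRat q (V.U l k) = -padicValRat q (V.D 0) +
          n * padicValInt q (eZ A B (i + 1) - eZ A B (i + 2)) := by
      intro l k hk n hn
      have h4 := hU l k hk
      rw [hn] at h4
      have h5 := mul_eq_of_sq h4
      rw [v_ratCast hq h𝔓 (V.U_ne l k hk), v_ratCast hq h𝔓 (V.D_ne l), hγ, ← zpow_add₀ hq0,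
        ← pow_mul, ← zpow_natCast] at h5
      have h6 := zpow_v_inj hq h𝔓 h5
      rw [hD' 0 l]
      push_cast at h6
      linarith
    refine ⟨hD', m, fun k hk => ⟨?_, ?_, ?_⟩⟩
    · have := key i k hk 0 (by rw [mul_zero, pow_zero]; exact (hc2 k hk).1)
      rw [this]; simp
    · exact key (i + 1) k hk (m k) (hc2 k hk).2.1
    · exact key (i + 2) k hk (m k) (hc2 k hk).2.2

end

end Fermat.Agent.Mazur.S12
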