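import Fermat.Agent.Mazur.S12.Val
import Fermat.Agent.Descent.LocTwo

/-!
# The rational torsion point on the isogenous curve

Doubling formulas show that `P_k = (Y_0(k)², Y_0(k) Y_1(k) Y_2(k))` satisfies `2 P_k = P_{2k}`; hence
`P_1` is a rational torsion point of odd order. Its component at `2` has order `p`.
-/

set_option autoImplicit false
set_option linter.unusedSectionVars false

namespace Fermat.Agent.Mazur.S12

open WeierstrassCurve WeierstrassCurve.Affine Fermat.Agent.Descent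
open Fermat.Agent.ECRed hiding xc
open Fermat.Agent.LOC

local notation "Qb" => AlgebraicClosure ℚ

/-! ### Arithmetic at `2` -/

/-- A rational number with `v₂ = 0` is a quotient of odd integers. -/
lemma odd_div_odd {u : ℚ} (hu : u ≠ 0) (h : padicValRat 2 u = 0) :
    ¬ (2 : ℤ) ∣ u.num ∧ ¬ (2 : ℤ) ∣ (u.den : ℤ) := by
  have hfact : Fact (Nat.Prime 2) := ⟨Nat.prime_two⟩
  rw [padicValRat_def] at h
  have hcop := u.reduced
  have key : ¬ ((2 : ℤ) ∣ u.num ∧ (2 : ℤ) ∣ (u.den : ℤ)) := by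
    rintro ⟨h1, h2⟩
    have h1' : 2 ∣ u.num.natAbs := Int.natCast_dvd.mp (by exact_mod_cast h1)
    have h2' : 2 ∣ u.den := by exact_mod_cast h2
    have := Nat.dvd_gcd h1' h2'
    rw [hcop] at this
    omega
  have e1 : ∀ n : ℤ, n ≠ 0 → ((2 : ℤ) ∣ n ↔ padicValInt 2 n ≠ 0) := by
    intro n hn
    constructor
    · intro hd h0
      have := (padicValInt_dvd_iff (p := 2) 1 n).mp (by rw [pow_one]; exact_mod_cast hd)
      omega
    · intro h0
      by_contra hd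
      exact h0 (padicValInt.eq_zero_of_not_dvd (by exact_mod_cast hd))
  have e2 : padicValInt 2 (u.den : ℤ) = padicValNat 2 u.den := padicValInt.of_nat
  have hn := e1 u.num (Rat.num_ne_zero.mpr hu)
  have hd := e1 (u.den : ℤ) (by exact_mod_cast u.den_nz)
  rw [e2] at hd
  constructor
  · intro h1
    have h2 := hn.mp h1
    have h3 : padicValNat 2 u.den ≠ 0 := by omega
    exact key ⟨h1, hd.mpr h3⟩
  · intro h1
    have h2 := hd.mp h1
    have h3 : padicValInt 2 u.num ≠ 0 := by omega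
    exact key ⟨hn.mpr h3, h1⟩

lemma odd_pow_four {s : ℤ} (h : ¬ (2 : ℤ) ∣ s) : s ^ 4 % 4 = 1 := by
  obtain ⟨k, rfl⟩ : ∃ k, s = 2 * k + 1 := ⟨s / 2, by omega⟩
  have : (2 * k + 1) ^ 4 = 4 * (4 * k ^ 4 + 8 * k ^ 3 + 6 * k ^ 2 + 2 * k) + 1 := by ring
  rw [this]; omega

lemma pow_mod_four {A : ℤ} {p : ℕ} (hp : Odd p) (h : A % 4 = 3) : A ^ p % 4 = 3 := by
  have h1 : A ≡ -1 [ZMOD 4] := by
    rw [Int.ModEq, h]; rfl
  have h2 := h1.pow p
  rw [hp.neg_one_pow] at h2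
  have h3 : A ^ p % 4 = (-1) % 4 := h2
  rw [h3]; rfl

section Two

variable {p : ℕ} {A B : ℤ} {G : GalData p (eZ A B)} {V : VeluOut p (eZ A B) G}
  (N : NData p A B V.D)

theorem NData.two (hp : p.Prime) (hp2 : p ≠ 2) (hT : IsTri p A B) :
    N.A' % 4 = 3 ∧ (32 : ℤ) ∣ N.B' ∧
    (padicValInt 2 N.B' : ℤ) = p * ((padicValInt 2 B : ℤ) - 4) + 4 ∧
    padicValRat 2 (V.D 0) = padicValRat 2 (V.D 1) + (p - 1) ∧
    padicValRat 2 (V.D 2) = padicValRat 2 (V.D 1) + (p - 1) ∧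
    ∃ j : ℕ, 1 ≤ j ∧ 2 * j ≤ p - 1 ∧ padicValRat 2 (N.Y 1 1) = 0 ∧
      padicValRat 2 (N.Y 0 1) = 1 + j * ((padicValInt 2 B : ℤ) - 4) ∧
      padicValRat 2 (N.Y 2 1) = 1 + j * ((padicValInt 2 B : ℤ) - 4) := by
  have hfact : Fact (Nat.Prime 2) := ⟨Nat.prime_two⟩
  have hp1 : ¬ p ∣ 1 := hp.one_lt.ne' ∘ Nat.dvd_one.mp
  have hodd : Odd p := hp.odd_of_ne_two hp2
  obtain ⟨c, a, j, ha, hj, hD0, hD2⟩ := locTwoInput hp hp2 A B hT G V
  obtain ⟨⟨hj1, hj2, -⟩, hU1, hU0, hU2⟩ := hj 1 hp1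
  set v : ℤ := (padicValInt 2 B : ℤ) with hv
  have hv5 : 5 ≤ v := by
    have h32 : ((2 : ℕ) : ℤ) ^ 5 ∣ B := by
      have := hT.B32
      norm_num
      exact this
    rcases (padicValInt_dvd_iff (p := 2) 5 B).mp h32 with h | h
    · exact absurd h hT.B0
    · rw [hv]; exact_mod_cast h
  have hA2 : ¬ (2 : ℤ) ∣ A := by have := hT.A4; omega
  have hvA : padicValInt 2 A = 0 := padicValInt.eq_zero_of_not_dvd (by exact_mod_cast hA2)
  have f1 := N.val_rel hT Nat.prime_two 1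
  have f2 := N.val_rel hT Nat.prime_two 2
  have h12 := N.val_eq_zero_or Nat.prime_two (i := 1) (j := 2) (by decide)
  have r1 : (1 : Fin 3) + 1 = 2 := rfl
  have r2 : (1 : Fin 3) + 2 = 0 := rfl
  have r3 : (2 : Fin 3) + 1 = 0 := rfl
  have r4 : (2 : Fin 3) + 2 = 1 := rfl
  rw [r1, r2] at f1 h12
  rw [r3, r4] at f2 h12
  have hneg : ∀ n : ℤ, padicValInt 2 (-n) = padicValInt 2 n := fun n => by
    rw [padicValInt, padicValInt, Int.natAbs_neg]
  have e20 : ∀ A B : ℤ, eZ A B 2 - eZ A B 0 = -B := fun A B => by simp [eZ]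
  have e01 : ∀ A B : ℤ, eZ A B 0 - eZ A B 1 = -A := fun A B => by simp [eZ]
  rw [e20, e20, hneg, hneg] at f1
  rw [e01, e01, hneg, hneg, hvA] at f2
  rw [e20, e01, hneg, hneg] at h12
  rw [← hv] at f1
  push_cast at f2
  rw [mul_zero, zero_add] at f2
  have hpp : (2 : ℤ) ≤ p := by exact_mod_cast hp.two_le
  have hA' : padicValInt 2 N.A' = 0 := by
    rcases h12 with h | h
    · exfalso
      rw [h] at f1
      push_cast at f1
      have h3 : (padicValInt 2 N.A' : ℤ) = 4 * (p - 1) - p * v := by linarith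
      have h4 : (0 : ℤ) ≤ padicValInt 2 N.A' := by positivity
      nlinarith
    · exact h
  rw [hA'] at f2
  push_cast at f2
  have hw : padicValRat 2 N.w = padicValRat 2 (V.D 2) := by linarith
  have hB' : (padicValInt 2 N.B' : ℤ) = p * (v - 4) + 4 := by
    rw [hw, hD2] at f1
    linarith
  have hB'5 : 5 ≤ (padicValInt 2 N.B' : ℤ) := by nlinarith
  have hB32 : (32 : ℤ) ∣ N.B' := by
    have := (padicValInt_dvd_iff (p := 2) 5 N.B').mpr (Or.inr (by exact_mod_cast hB'5))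
    norm_num at this
    exact this
  -- the class of `A'` modulo `4`
  have hA4 : N.A' % 4 = 3 := by
    have h1 := N.rel 2
    rw [r3, r4, e01, e01] at h1
    push_cast at h1
    rw [hodd.neg_pow] at h1
    have hu0 : V.D 2 / N.w ≠ 0 := div_ne_zero (V.D_ne 2) N.w0
    have hu : padicValRat 2 (V.D 2 / N.w) = 0 := by
      rw [padicValRat.div (V.D_ne 2) N.w0, hw, sub_self]
    obtain ⟨g1, g2⟩ := odd_div_odd hu0 hu
    set u := V.D 2 / N.w with hu'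
    have h2 : (N.A' : ℚ) = (A : ℚ) ^ p * u ^ 4 := by
      have := N.w0
      rw [hu', div_pow, ← mul_div_assoc, eq_div_iff (pow_ne_zero 4 N.w0)]
      linear_combination -h1
    have h3 : N.A' * (u.den : ℤ) ^ 4 = A ^ p * u.num ^ 4 := by
      have h4 : (N.A' : ℚ) * ((u.den : ℤ) : ℚ) ^ 4 = (A : ℚ) ^ p * (u.num : ℚ) ^ 4 := by
        rw [h2]
        have h5 : (u.num : ℚ) = u * ((u.den : ℤ) : ℚ) := by
          push_cast
          exact (Rat.mul_den_eq_num u).symm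
        rw [h5]; ring
      exact_mod_cast h4
    have k1 := odd_pow_four g1
    have k2 := odd_pow_four g2
    have k3 := pow_mod_four hodd hT.A4
    have h4 : (N.A' * (u.den : ℤ) ^ 4) % 4 = (A ^ p * u.num ^ 4) % 4 := by rw [h3]
    rw [Int.mul_emod, k2, Int.mul_emod (A ^ p), k1, k3] at h4
    omega
  -- the constant
  have hY := fun l => N.val_Y Nat.prime_two l hp1
  have hc0 : padicValRat 2 (N.Y 1 1) = padicValRat 2 (V.D 1) + c := by
    rw [hY, hU1, hw, hD0, hD2]; ring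
  have hy0 : padicValRat 2 (N.Y 0 1) = padicValRat 2 (V.D 1) + c + 1 + j 1 * (v - 4) := by
    rw [hY, hU0, hw, hD0, hD2]; ring
  have hy2 : padicValRat 2 (N.Y 2 1) = padicValRat 2 (V.D 1) + c + 1 + j 1 * (v - 4) := by
    rw [hY, hU2, hw, hD0, hD2]; ring
  have hcc : padicValRat 2 (V.D 1) + c = 0 := by
    have h1 := N.Y_sub hp hp2 0 hp1
    have r0 : (0 : Fin 3) + 1 = 1 := rfl
    have e10 : eZ N.A' N.B' 1 - eZ N.A' N.B' 0 = N.A' := by simp [eZ]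
    rw [r0, e10] at h1
    have hY0 := N.Y_ne 0 hp1
    have hY1 := N.Y_ne 1 hp1
    have hlt : padicValRat 2 (N.Y 1 1 ^ 2) < padicValRat 2 (N.Y 0 1 ^ 2) := by
      rw [padicValRat.pow, padicValRat.pow, hc0, hy0]
      have : (0 : ℤ) ≤ j 1 * (v - 4) := mul_nonneg (by positivity) (by linarith)
      push_cast
      linarith
    have hA'0 : (N.A' : ℚ) ≠ 0 := by
      intro h0
      have : N.A' = 0 := by exact_mod_cast h0
      rw [this] at hA4
      omega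
    have h2 : padicValRat 2 (-(N.Y 1 1 ^ 2) + N.Y 0 1 ^ 2) = padicValRat 2 (-(N.Y 1 1 ^ 2)) := by
      refine padicValRat.add_eq_of_lt ?_ (neg_ne_zero.mpr (pow_ne_zero 2 hY1))
        (pow_ne_zero 2 hY0) ?_
      · rw [neg_add_eq_sub, h1]; exact hA'0
      · rw [padicValRat.neg]; exact hlt
    rw [neg_add_eq_sub, h1, padicValRat.neg, padicValRat.pow, padicValRat.of_int, hA', hc0] at h2
    push_cast at h2
    linarith
  refine ⟨hA4, hB32, hB', hD0, hD2, j 1, hj1, hj2, by rw [hc0, hcc], ?_, ?_⟩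
  · rw [hy0, hcc]; ring
  · rw [hy2, hcc]; ring

end Two

/-! ### The points `P_k` -/

section Pts

variable {p : ℕ} {A B : ℤ} {G : GalData p (eZ A B)} {V : VeluOut p (eZ A B) G}
  (N : NData p A B V.D)

theorem NData.x_sub (hp : p.Prime) (hp2 : p ≠ 2) (l : Fin 3) {k : ℕ} (hk : ¬ p ∣ k) :
    N.Y 0 k ^ 2 - ((eZ N.A' N.B' l : ℤ) : ℚ) = N.Y l k ^ 2 := by
  have r0 : (0 : Fin 3) + 1 = 1 := rfl
  have r2 : (2 : Fin 3) + 1 = 0 := rfl
  have e0 : eZ N.A' N.B' 0 = 0 := by simp [eZ]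
  match l with
  | 0 => rw [e0, Int.cast_zero, sub_zero]
  | 1 =>
    have h := N.Y_sub hp hp2 0 hk
    rw [r0, e0, sub_zero] at h
    linear_combination h
  | 2 =>
    have h := N.Y_sub hp hp2 2 hk
    rw [r2, e0, zero_sub] at h
    push_cast at h
    linear_combination -h

theorem NData.x_sub' (hp : p.Prime) (hp2 : p ≠ 2) (l : Fin 3) {k : ℕ} (hk : ¬ p ∣ k) :
    ((N.Y 0 k ^ 2 : ℚ) : Qb) - ((eZ N.A' N.B' l : ℤ) : Qb) = ((N.Y l k : ℚ) : Qb) ^ 2 := by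
  have h := congrArg (Rat.cast (K := Qb)) (N.x_sub hp hp2 l hk)
  push_cast at h ⊢
  exact h

/-- The curve `y² = x (x - A') (x + B')` over `ℚ̄`. -/
noncomputable abbrev NData.curve (N : NData p A B V.D) : WeierstrassCurve Qb :=
  ((leg (fun i => (eZ N.A' N.B' i : ℚ)))⁄Qb)

theorem NData.equation (hp : p.Prime) (hp2 : p ≠ 2) {k : ℕ} (hk : ¬ p ∣ k) :
    N.curve.toAffine.Equation ((N.Y 0 k ^ 2 : ℚ) : Qb) ((N.Y 0 k * N.Y 1 k * N.Y 2 k : ℚ) : Qb) := by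
  rw [(isLeg_Qb (eZ N.A' N.B')).equation_iff, N.x_sub' hp hp2 0 hk, N.x_sub' hp hp2 1 hk,
    N.x_sub' hp hp2 2 hk]
  push_cast; ring

include N in
theorem NData.ABC_ne (hT : IsTri p A B) : N.A' ≠ 0 ∧ N.B' ≠ 0 ∧ N.A' + N.B' ≠ 0 := by
  have h0 := N.diff_ne hT 0
  have h1 := N.diff_ne hT 1
  have h2 := N.diff_ne hT 2
  have r0 : (0 : Fin 3) + 1 = 1 := rfl
  have r0' : (0 : Fin 3) + 2 = 2 := rfl
  have r1 : (1 : Fin 3) + 1 = 2 := rfl
  have r2 : (1 : Fin 3) + 2 = 0 := rfl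
  have r3 : (2 : Fin 3) + 1 = 0 := rfl
  have r4 : (2 : Fin 3) + 2 = 1 := rfl
  rw [r0, r0'] at h0
  rw [r1, r2] at h1
  rw [r3, r4] at h2
  simp only [eZ, Fin.isValue, Matrix.cons_val_one, Matrix.cons_val_zero, Matrix.cons_val,
    sub_neg_eq_add, sub_zero, zero_sub, ne_eq, neg_eq_zero] at h0 h1 h2
  exact ⟨h2, h1, h0⟩

theorem NData.e_inj (hT : IsTri p A B) :
    Function.Injective (fun i => ((eZ N.A' N.B' i : ℤ) : Qb)) := by
  obtain ⟨h1, h2, h3⟩ := N.ABC_ne hT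
  intro i j hij
  have h : eZ N.A' N.B' i = eZ N.A' N.B' j := by
    change ((eZ N.A' N.B' i : ℤ) : Qb) = ((eZ N.A' N.B' j : ℤ) : Qb) at hij
    exact_mod_cast hij
  fin_cases i <;> fin_cases j <;> simp [eZ] at h ⊢ <;> omega

/-- The point `P_k`. -/
noncomputable def NData.pt (hp : p.Prime) (hp2 : p ≠ 2) (hT : IsTri p A B) {k : ℕ}
    (hk : ¬ p ∣ k) : N.curve.toAffine.Point :=
  .some _ _ ((Affine.equation_iff_nonsingular_of_Δ_ne_zero
    (Δ_ne_zero_of_isLeg (isLeg_Qb (eZ N.A' N.B')) two_ne_zero (N.e_inj hT))).mp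
      (N.equation hp hp2 hk))

variable (hp : p.Prime) (hp2 : p ≠ 2) (hT : IsTri p A B)

theorem NData.xc_pt {k : ℕ} (hk : ¬ p ∣ k) :
    xc (N.pt hp hp2 hT hk) = ((N.Y 0 k ^ 2 : ℚ) : Qb) := rfl

theorem NData.yc_pt {k : ℕ} (hk : ¬ p ∣ k) :
    yc (N.pt hp hp2 hT hk) = ((N.Y 0 k * N.Y 1 k * N.Y 2 k : ℚ) : Qb) := rfl

theorem NData.pt_ne {k : ℕ} (hk : ¬ p ∣ k) : N.pt hp hp2 hT hk ≠ 0 := Point.some_ne_zero _

theorem eq_of_xc_yc {W : WeierstrassCurve Qb} {P Q : W.toAffine.Point} (hP : P ≠ 0) (hQ : Q ≠ 0)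
    (h1 : xc P = xc Q) (h2 : yc P = yc Q) : P = Q := by
  rcases P with _ | ⟨x, y, h⟩
  · exact absurd rfl hP
  rcases Q with _ | ⟨x', y', h'⟩
  · exact absurd rfl hQ
  simp only [Descent.xc_some, Descent.yc_some] at h1 h2
  subst h1 h2
  rfl

/-- `2 P_k = P_{2k}` -/
theorem NData.pt_add_self {k : ℕ} (hk : ¬ p ∣ k) (hk2 : ¬ p ∣ 2 * k) :
    N.pt hp hp2 hT hk + N.pt hp hp2 hT hk = N.pt hp hp2 hT hk2 := by
  set P := N.pt hp hp2 hT hk with hPdef
  set e' : Fin 3 → Qb := fun i => ((eZ N.A' N.B' i : ℤ) : Qb) with he'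
  have hV : IsLeg N.curve e' := isLeg_Qb (eZ N.A' N.B')
  have hY : ∀ l, ((N.Y l k : ℚ) : Qb) ≠ 0 := fun l => by exact_mod_cast N.Y_ne l hk
  have hxP : xc P = ((N.Y 0 k ^ 2 : ℚ) : Qb) := N.xc_pt hp hp2 hT hk
  have hyP : yc P = ((N.Y 0 k * N.Y 1 k * N.Y 2 k : ℚ) : Qb) := N.yc_pt hp hp2 hT hk
  have hy : yc P ≠ 0 := by
    rw [hyP]
    push_cast
    exact mul_ne_zero (mul_ne_zero (hY 0) (hY 1)) (hY 2)
  obtain ⟨h1, h2, h3⟩ := hV.add_self two_ne_zero (N.pt_ne hp hp2 hT hk) hy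
  have hsum : ∀ i, wf e' i (xc P) (yc P) + wf e' (i + 1) (xc P) (yc P) =
      ((N.Y i (2 * k) : ℚ) : Qb) + ((N.Y (i + 1) (2 * k) : ℚ) : Qb) := by
    intro i
    rw [wf_add two_ne_zero i hy]
    have h4 := congrArg (Rat.cast (K := Qb)) (N.Y_rel i hk)
    push_cast at h4
    rw [h4, hxP, N.x_sub' hp hp2 i hk, N.x_sub' hp hp2 (i + 1) hk, hyP]
    have h5 : N.Y 0 k * N.Y 1 k * N.Y 2 k = N.Y i k * N.Y (i + 1) k * N.Y (i + 2) k :=
      prod_rot (fun l => N.Y l k) i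
    rw [h5]
    push_cast
    have n0 := hY i
    have n1 := hY (i + 1)
    have n2 := hY (i + 2)
    field_simp
  have s0 := hsum 0
  have s1 := hsum 1
  have s2 := hsum 2
  have r0 : (0 : Fin 3) + 1 = 1 := rfl
  have r1 : (1 : Fin 3) + 1 = 2 := rfl
  have r2 : (2 : Fin 3) + 1 = 0 := rfl
  rw [r0] at s0
  rw [r1] at s1
  rw [r2] at s2
  have w0 : wf e' 0 (xc P) (yc P) = ((N.Y 0 (2 * k) : ℚ) : Qb) := by
    linear_combination (s0 - s1 + s2) / 2
  have w1 : wf e' 1 (xc P) (yc P) = ((N.Y 1 (2 * k) : ℚ) : Qb) := by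
    linear_combination (s0 + s1 - s2) / 2
  have w2 : wf e' 2 (xc P) (yc P) = ((N.Y 2 (2 * k) : ℚ) : Qb) := by
    linear_combination (s1 + s2 - s0) / 2
  refine eq_of_xc_yc h1 (N.pt_ne hp hp2 hT hk2) ?_ ?_
  · have h4 := h2 0
    have h5 := N.x_sub' hp hp2 0 hk2
    rw [N.xc_pt hp hp2 hT hk2]
    rw [w0, ← h5] at h4
    exact sub_left_injective h4
  · rw [N.yc_pt hp hp2 hT hk2, h3, w0, w1, w2]
    push_cast; ring

theorem not_dvd_two_pow {p : ℕ} (hp : p.Prime) (hp2 : p ≠ 2) (m : ℕ) : ¬ p ∣ 2 ^ m := fun h =>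
  hp2 ((Nat.prime_dvd_prime_iff_eq hp Nat.prime_two).mp (hp.dvd_of_dvd_pow h))

theorem not_dvd_one {p : ℕ} (hp : p.Prime) : ¬ p ∣ 1 := hp.one_lt.ne' ∘ Nat.dvd_one.mp

theorem NData.two_pow_nsmul (h1 : ¬ p ∣ 1) (m : ℕ) : ∀ (k : ℕ) (hk : ¬ p ∣ k), k = 2 ^ m →
    k • N.pt hp hp2 hT h1 = N.pt hp hp2 hT hk := by
  induction m with
  | zero =>
    intro k hk h
    rw [pow_zero] at h
    subst h
    exact one_nsmul _
  | succ m ih =>
    intro k hk h
    rw [pow_succ'] at h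
    subst h
    rw [mul_nsmul', ih _ (not_dvd_two_pow hp hp2 m) rfl, two_nsmul, N.pt_add_self hp hp2 hT _ hk]

/-- `P_1` is a torsion point of odd order. -/
theorem NData.odd_addOrderOf : Odd (addOrderOf (N.pt hp hp2 hT (not_dvd_one hp))) := by
  set P := N.pt hp hp2 hT (not_dvd_one hp) with hP
  have hV : IsLeg N.curve (fun i => ((eZ N.A' N.B' i : ℤ) : Qb)) := isLeg_Qb (eZ N.A' N.B')
  have hcong : (2 ^ (p - 1)) • G.r = 1 • G.r := by
    have hc : Nat.Coprime 2 p := (Nat.coprime_primes Nat.prime_two hp).mpr (Ne.symm hp2)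
    have h1 : 2 ^ (p - 1) ≡ 1 [MOD p] := by
      rw [← Nat.totient_prime hp]
      exact Nat.ModEq.pow_totient hc
    have h2 : addOrderOf G.r ∣ p := addOrderOf_dvd_of_nsmul_eq_zero G.hr
    exact nsmul_eq_nsmul_iff_modEq.mpr (h1.of_dvd h2)
  have hsq := N.Y_sq_congr 0 (not_dvd_two_pow hp hp2 (p - 1)) (not_dvd_one hp) hcong
  have hx : xc (N.pt hp hp2 hT (not_dvd_two_pow hp hp2 (p - 1))) = xc P := by
    rw [hP, N.xc_pt, N.xc_pt, hsq]
  have h2 := N.two_pow_nsmul hp hp2 hT (not_dvd_one hp) (p - 1) _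
    (not_dvd_two_pow hp hp2 (p - 1)) rfl
  rw [← hP] at h2
  have hp1 : 1 ≤ p - 1 := by have := hp.two_le; omega
  have heven : Even (2 ^ (p - 1)) := Nat.even_pow.mpr ⟨even_two, by omega⟩
  have h2p : 1 ≤ 2 ^ (p - 1) := Nat.one_le_two_pow
  rcases hV.eq_or_eq_neg (N.pt_ne hp hp2 hT _) (N.pt_ne hp hp2 hT _) hx with h3 | h3
  · have h4 : (2 ^ (p - 1) - 1) • P = 0 := by
      have h5 : (2 ^ (p - 1) - 1 + 1) • P = (2 ^ (p - 1)) • P := by
        rw [Nat.sub_add_cancel h2p]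
      rw [add_nsmul, one_nsmul, h2, h3] at h5
      exact add_eq_right.mp h5
    exact Odd.of_dvd_nat (Nat.Even.sub_odd h2p heven odd_one) (addOrderOf_dvd_of_nsmul_eq_zero h4)
  · have h4 : (2 ^ (p - 1) + 1) • P = 0 := by
      rw [add_nsmul, one_nsmul, h2, h3, neg_add_cancel]
    exact Odd.of_dvd_nat (heven.add_one) (addOrderOf_dvd_of_nsmul_eq_zero h4)

end Pts

/-! ### The component at `2` -/

section Comp

open TwoAux

variable {p : ℕ} {A B : ℤ} {G : GalData p (eZ A B)} {V : VeluOut p (eZ A B) G}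
  (N : NData p A B V.D) (hp : p.Prime) (hp2 : p ≠ 2) (hT : IsTri p A B)

/-- The point `P_1` on the model `freyZ A' B'`. -/
theorem NData.exists_pt' :
    ∃ P : (((freyZ N.A' N.B').map (Int.castRingHom ℚ))⁄Qb).Point,
      (∀ σ : Qb ≃ₐ[ℚ] Qb, σ • P = P) ∧
      addOrderOf P = addOrderOf (N.pt hp hp2 hT (not_dvd_one hp)) ∧
      ∃ x y h, P = .some x y h ∧ 4 * x = ((N.Y 0 1 : ℚ) : Qb) ^ 2 ∧
        (4 * (2 * y + x)) ^ 2 = ((N.Y 0 1 * N.Y 1 1 * N.Y 2 1 : ℚ) : Qb) ^ 2 := by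
  obtain ⟨hA4, hB32, -⟩ := N.two hp hp2 hT
  obtain ⟨E, hEσ, hE⟩ := GalAux.exists_transport hA4 hB32
  set P := N.pt hp hp2 hT (not_dvd_one hp) with hP
  have hfix : ∀ σ : Qb ≃ₐ[ℚ] Qb, σ • P = P := by
    intro σ
    rw [hP, NData.pt]
    change Point.map σ.toAlgHom _ = _
    rw [Point.map_some, Point.some.injEq]
    exact ⟨map_ratCast σ _, map_ratCast σ _⟩
  have hord : addOrderOf (E.symm P) = addOrderOf P := by
    have := addOrderOf_injective E.symm.toAddMonoidHom E.symm.injective P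
    exact this
  refine ⟨E.symm P, fun σ => ?_, hord, ?_⟩
  · apply E.injective
    rw [hEσ, AddEquiv.apply_symm_apply, hfix]
  · rcases hQ : E.symm P with _ | ⟨x, y, h⟩
    · exfalso
      have h1 : P = 0 := by
        have h2 : E.symm P = 0 := hQ
        rwa [EmbeddingLike.map_eq_zero_iff] at h2
      exact N.pt_ne hp hp2 hT _ h1
    · have h1 : 4 * x = ((N.Y 0 1 : ℚ) : Qb) ^ 2 := by
        rw [← hE x y h, ← hQ, AddEquiv.apply_symm_apply, hP, N.xc_pt]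
        push_cast; rfl
      refine ⟨x, y, h, rfl, h1, ?_⟩
      have h2 : (4 : Qb) * ((freyZ N.A' N.B').a₂ : Qb) = N.B' - 1 - N.A' := by
        exact_mod_cast congrArg (Int.cast (R := Qb)) (four_mul_a₂ hA4 hB32)
      have h4 : (16 : Qb) * ((freyZ N.A' N.B').a₄ : Qb) = -N.A' * N.B' := by
        exact_mod_cast congrArg (Int.cast (R := Qb)) (sixteen_mul_a₄ (A := N.A') hB32)
      have heq := (Affine.equation_iff _ _).mp h.1
      have a1 : (WQ N.A' N.B').a₁ = 1 := by simp [WQ, WeierstrassCurve.baseChange]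
      have a2 : (WQ N.A' N.B').a₂ = ((freyZ N.A' N.B').a₂ : Qb) := by
        simp [WQ, WeierstrassCurve.baseChange]
      have a3 : (WQ N.A' N.B').a₃ = 0 := by simp [WQ, WeierstrassCurve.baseChange]
      have a4 : (WQ N.A' N.B').a₄ = ((freyZ N.A' N.B').a₄ : Qb) := by
        simp [WQ, WeierstrassCurve.baseChange]
      have a6 : (WQ N.A' N.B').a₆ = 0 := by simp [WQ, WeierstrassCurve.baseChange]
      have heq' : y ^ 2 + (WQ N.A' N.B').a₁ * x * y + (WQ N.A' N.B').a₃ * y =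
        x ^ 3 + (WQ N.A' N.B').a₂ * x ^ 2 + (WQ N.A' N.B').a₄ * x + (WQ N.A' N.B').a₆ := heq
      rw [a1, a2, a3, a4, a6] at heq'
      have e0 : (4 * x : Qb) = ((N.Y 0 1 : ℚ) : Qb) ^ 2 := h1
      have e1 : 4 * x - (N.A' : Qb) = ((N.Y 1 1 : ℚ) : Qb) ^ 2 := by
        have h5 := N.x_sub' hp hp2 1 (not_dvd_one hp)
        rw [← h5, h1]; simp [eZ]
      have e2 : 4 * x + (N.B' : Qb) = ((N.Y 2 1 : ℚ) : Qb) ^ 2 := by
        have h5 := N.x_sub' hp hp2 2 (not_dvd_one hp)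
        rw [← h5, h1]; simp [eZ]
      have e3 : (((N.Y 0 1 : ℚ) : Qb) * ((N.Y 1 1 : ℚ) : Qb) * ((N.Y 2 1 : ℚ) : Qb)) ^ 2 =
          (4 * x) * (4 * x - (N.A' : Qb)) * (4 * x + (N.B' : Qb)) := by
        rw [e1, e2, e0]; ring
      push_cast
      rw [e3]
      linear_combination 64 * heq' + 16 * x ^ 2 * h2 + 4 * x * h4

theorem NData.v_Δ {v : ValuationSubring Qb} (hv : v.LiesOverPrime 2) {A' B' : ℤ}
    (hA4 : A' % 4 = 3) (hB32 : (32 : ℤ) ∣ B') (hB0 : B' ≠ 0) :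
    v.valuation (WQ A' B').Δ = v.valuation (2 : Qb) ^ (2 * (padicValInt 2 B' : ℤ) - 8) := by
  set t := v.valuation (2 : Qb) with ht
  have ht0 : 0 < t := by rw [ht, Valuation.pos_iff]; norm_num
  have hint : ∀ n : ℤ, n ≠ 0 → v.valuation (n : Qb) = t ^ ((padicValInt 2 n : ℕ) : ℤ) := fun n hn => by
    rw [v_int_eq Nat.prime_two hv hn, zpow_natCast]; norm_num [ht]
  rw [baseChange_int_Δ]
  have h1 := freyZ_Δ hA4 hB32
  have h2 : (256 : Qb) * ((freyZ A' B').Δ : Qb) = ((A' * B' * (A' + B') : ℤ) : Qb) ^ 2 := by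
    exact_mod_cast congrArg (Int.cast (R := Qb)) h1
  have hA2 : ¬ (2 : ℤ) ∣ A' := by omega
  have hC2 : ¬ (2 : ℤ) ∣ A' + B' := by omega
  have hcop : ∀ n : ℤ, ¬ (2 : ℤ) ∣ n → IsCoprime n ((2 : ℕ) : ℤ) := fun n hn =>
    ((Nat.prime_iff_prime_int.mp Nat.prime_two).coprime_iff_not_dvd.mpr hn).symm
  have h3 : v.valuation ((A' * B' * (A' + B') : ℤ) : Qb) = t ^ ((padicValInt 2 B' : ℕ) : ℤ) := by
    push_cast
    rw [map_mul, map_mul, valuation_int_eq_one v hv (hcop _ hA2), one_mul, hint B' hB0]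
    have := valuation_int_eq_one v hv (hcop _ hC2)
    push_cast at this
    rw [this, mul_one]
  have h5 := congrArg v.valuation h2
  rw [map_mul, map_pow, h3, show (256 : Qb) = 2 ^ 8 by norm_num, map_pow] at h5
  rw [zpow_sub₀ ht0.ne', eq_div_iff (zpow_ne_zero _ ht0.ne'), mul_comm]
  have e8 : t ^ (8 : ℤ) = t ^ 8 := by norm_cast
  rw [e8, h5, ← zpow_natCast, ← zpow_mul]
  congr 1
  push_cast; ring

theorem NData.dvd_addOrderOf : p ∣ addOrderOf (N.pt hp hp2 hT (not_dvd_one hp)) := by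
  obtain ⟨hA4, hB32, hvB, -, -, j, hj1, hj2, hY1, hY0, hY2⟩ := N.two hp hp2 hT
  obtain ⟨hA0, hB0, hC0⟩ := N.ABC_ne hT
  obtain ⟨P, -, hord, x, y, h, hP, hx0, -⟩ := N.exists_pt' hp hp2 hT
  have hoddn := N.odd_addOrderOf hp hp2 hT
  rw [← hord] at hoddn ⊢
  set n := addOrderOf P with hn
  obtain ⟨v, hv⟩ := Fermat.Agent.FrobExists.exists_liesOverPrime Qb Nat.prime_two
  have hfact2 : Fact (Nat.Prime 2) := ⟨Nat.prime_two⟩
  have hcop : ∀ n : ℤ, ¬ (2 : ℤ) ∣ n → IsCoprime n ((2 : ℕ) : ℤ) := fun n hn =>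
    ((Nat.prime_iff_prime_int.mp Nat.prime_two).coprime_iff_not_dvd.mpr hn).symm
  set t := v.valuation (2 : Qb) with ht
  have ht1 : t < 1 := by
    have := valuation_int_lt_one v hv (n := 2) (dvd_refl _)
    simpa [ht] using this
  have ht0 : 0 < t := by rw [ht, Valuation.pos_iff]; norm_num
  have hrat : ∀ x : ℚ, x ≠ 0 → v.valuation (x : Qb) = t ^ padicValRat 2 x := fun x hx => by
    rw [v_rat_eq Nat.prime_two hv hx]; norm_num [ht]
  have h4 : v.valuation (4 : Qb) = t ^ (2 : ℤ) := by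
    rw [show (4 : Qb) = 2 ^ 2 by norm_num, map_pow]; norm_cast
  have hv5 : 5 ≤ (padicValInt 2 B : ℤ) := by
    have h32 : ((2 : ℕ) : ℤ) ^ 5 ∣ B := by
      have := hT.B32
      norm_num
      exact this
    rcases (padicValInt_dvd_iff (p := 2) 5 B).mp h32 with h | h
    · exact absurd h hT.B0
    · exact_mod_cast h
  have hpp : (2 : ℤ) ≤ p := by exact_mod_cast hp.two_le
  have hΔ := NData.v_Δ (A' := N.A') (B' := N.B') hv hA4 hB32 hB0
  rw [hvB, ← ht] at hΔ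
  have hΔ0 : (WQ N.A' N.B').Δ ≠ 0 := by
    have : v.valuation (WQ N.A' N.B').Δ ≠ 0 := by rw [hΔ]; exact zpow_ne_zero _ ht0.ne'
    exact (Valuation.ne_zero_iff _).mp this
  have hA2 : ¬ (2 : ℤ) ∣ N.A' := by omega
  have hB2 : (2 : ℤ) ∣ N.B' := Dvd.dvd.trans (by norm_num) hB32
  have hc4 : v.valuation (WQ N.A' N.B').c₄ = 1 := by
    rw [baseChange_int_c₄, freyZ_c₄ hA4 hB32]
    refine valuation_int_eq_one v hv (hcop _ ?_)
    intro hd
    apply hA2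
    obtain ⟨m, hm⟩ := hB2
    have h1 : (2 : ℤ) ∣ N.A' ^ 2 := by
      obtain ⟨l, hl⟩ := hd
      exact ⟨l - N.A' * m - 2 * m ^ 2, by rw [hm] at hl; linear_combination hl⟩
    exact Int.prime_two.dvd_of_dvd_pow h1
  have hΔ1 : v.valuation (WQ N.A' N.B').Δ < 1 := by
    rw [hΔ, ← zpow_zero t]
    exact zpow_right_strictAnti₀ ht0 ht1 (by nlinarith)
  have hcoll : v.valuation (4 * (e4 N.A' N.B' (1 + 1) - e4 N.A' N.B' (1 + 2))) < 1 := by
    have : (4 : Qb) * (e4 N.A' N.B' (1 + 1) - e4 N.A' N.B' (1 + 2)) = ((-N.B' : ℤ) : Qb) := by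
      have h1 : e4 N.A' N.B' (1 + 1) = -N.B' / 4 := by
        change (eZ N.A' N.B' 2 : Qb) / 4 = _
        simp [eZ]
      have h2 : e4 N.A' N.B' (1 + 2) = 0 := by
        change (eZ N.A' N.B' 0 : Qb) / 4 = _
        simp [eZ]
      rw [h1, h2]; push_cast; ring
    rw [this]
    exact valuation_int_lt_one v hv (by rw [dvd_neg]; exact hB2)
  obtain ⟨Cmp, c1, -, -, -, c5, -, -, -⟩ := exists_components (W := WQ N.A' N.B')
    (v := v.valuation) two_ne_zero three_ne_zero (intCoeff_baseChange_int _ _) hc4 hΔ1 hΔ0 hoddn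
    (e4 N.A' N.B') (e4_inj hA0 hB0 hC0) (e4_root hA4 hB32) 1 hcoll
  obtain ⟨a, ha⟩ := c1 P (addOrderOf_nsmul_eq_zero P)
  rw [hP] at ha
  have g2 := (c5 x y h a ha).2
  have e40 : e4 N.A' N.B' (1 + 2) = 0 := by
    change (eZ N.A' N.B' 0 : Qb) / 4 = _
    simp [eZ]
  rw [e40, sub_zero] at g2
  -- the valuation of `x`
  set w : ℤ := (padicValInt 2 B : ℤ) - 4 with hw
  have hY0' := N.Y_ne 0 (not_dvd_one hp)
  have hvx : v.valuation x = t ^ (2 * (j * w)) := by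
    have h5 := congrArg v.valuation hx0
    rw [map_mul, map_pow, h4, hrat _ hY0', hY0] at h5
    have h6 : t ^ (2 : ℤ) * v.valuation x = t ^ (2 : ℤ) * t ^ (2 * (j * w)) := by
      rw [h5, ← zpow_natCast, ← zpow_mul, ← zpow_add₀ ht0.ne']
      congr 1
      push_cast; ring
    exact mul_left_cancel₀ (zpow_ne_zero _ ht0.ne') h6
  have hjw : (0 : ℤ) < j * w := mul_pos (by exact_mod_cast hj1) (by linarith)
  have hx1 : v.valuation x ≤ 1 := by
    rw [hvx, ← zpow_zero t]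
    exact (zpow_right_strictAnti₀ ht0 ht1).antitone (by linarith)
  rw [max_eq_left hx1, one_pow, one_mul, hvx, hΔ, ← zpow_natCast, ← zpow_natCast, ← zpow_mul,
    ← zpow_mul] at g2
  have g3 := zpow_inj_of_lt_one ht0 ht1 g2
  have g4 : (n : ℤ) * j = p * mu n a := by
    have hw0 : w ≠ 0 := by omega
    refine mul_left_cancel₀ (mul_ne_zero two_ne_zero hw0) ?_
    linear_combination g3
  have g5 : p ∣ n * j := ⟨mu n a, by exact_mod_cast g4⟩
  rcases hp.dvd_mul.mp g5 with h6 | h6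
  · exact h6
  · have := Nat.le_of_dvd hj1 h6
    omega

/-- **Output**: a rational torsion point on `freyZ A' B'` a multiple of which has order `p`. -/
theorem NData.exists_point (hp : p.Prime) (hp2 : p ≠ 2) (hT : IsTri p A B) :
    ∃ (P : (((freyZ N.A' N.B').map (Int.castRingHom ℚ))⁄Qb).Point) (m : ℕ),
      (∀ σ : Qb ≃ₐ[ℚ] Qb, σ • P = P) ∧ addOrderOf (m • P) = p ∧
      ∃ x y h, P = .some x y h ∧ 4 * x = ((N.Y 0 1 : ℚ) : Qb) ^ 2 ∧
        (4 * (2 * y + x)) ^ 2 = ((N.Y 0 1 * N.Y 1 1 * N.Y 2 1 : ℚ) : Qb) ^ 2 := by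
  obtain ⟨P, hfix, hord, hxy⟩ := N.exists_pt' hp hp2 hT
  have h1 := N.dvd_addOrderOf hp hp2 hT
  have h2 := N.odd_addOrderOf hp hp2 hT
  rw [← hord] at h1 h2
  refine ⟨P, addOrderOf P / p, hfix, ?_, hxy⟩
  obtain ⟨m, hm⟩ := h1
  have hpos : 0 < addOrderOf P := h2.pos
  have hm0 : m ≠ 0 := by
    rintro rfl
    rw [mul_zero] at hm
    omega
  rw [hm, Nat.mul_div_cancel_left m hp.pos, addOrderOf_nsmul_of_dvd hm0 (by rw [hm]; exact dvd_mul_left m p),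
    hm, Nat.mul_div_cancel _ (Nat.pos_of_ne_zero hm0)]

end Comp

end Fermat.Agent.Mazur.S12
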