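import Fermat.Agent.Mazur.S12.Local
import Fermat.Agent.Descent.Size
import Fermat.Agent.Descent.VeluMain
import Fermat.Agent.Descent.LocTwo

/-!
# The primitive triple of the isogenous curve
-/

set_option autoImplicit false
set_option linter.unusedSectionVars false

namespace Fermat.Agent.Mazur.S12

open WeierstrassCurve WeierstrassCurve.Affine Fermat.Agent.Descent
open Fermat.Agent.ECRed hiding xc

local notation "Qb" => AlgebraicClosure ℚ

/-! ### Numbers with prescribed valuations -/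

lemma exists_rat_of_val (S : Finset ℕ) (hS : ∀ q ∈ S, q.Prime) (f : ℕ → ℤ) :
    ∃ w : ℚ, w ≠ 0 ∧ ∀ q : ℕ, q.Prime → padicValRat q w = if q ∈ S then f q else 0 := by
  induction S using Finset.induction_on with
  | empty => exact ⟨1, one_ne_zero, fun q hq => by simp⟩
  | insert a S ha ih =>
    obtain ⟨w, hw, h⟩ := ih fun q hq => hS q (Finset.mem_insert_of_mem hq)
    have ha' := hS a (Finset.mem_insert_self _ _)
    have ha0 : (a : ℚ) ≠ 0 := by exact_mod_cast ha'.ne_zero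
    refine ⟨w * (a : ℚ) ^ f a, mul_ne_zero hw (zpow_ne_zero _ ha0), fun q hq => ?_⟩
    have : Fact q.Prime := ⟨hq⟩
    rw [padicValRat.mul hw (zpow_ne_zero _ ha0), padicValRat.zpow, h q hq]
    by_cases hqa : q = a
    · subst hqa
      rw [if_neg ha, if_pos (Finset.mem_insert_self _ _), padicValRat.self hq.one_lt]
      ring
    · have h1 : padicValRat q (a : ℚ) = 0 := by
        rw [padicValRat.of_nat]
        exact_mod_cast padicValNat.eq_zero_of_not_dvd fun hd =>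
          hqa ((Nat.prime_dvd_prime_iff_eq hq ha').mp hd)
      rw [h1, mul_zero, add_zero]
      by_cases hqS : q ∈ S
      · rw [if_pos hqS, if_pos (Finset.mem_insert_of_mem hqS)]
      · rw [if_neg hqS, if_neg (by rw [Finset.mem_insert]; tauto)]

lemma exists_pow_four {l : ℚ} (hl : l ≠ 0) (h : ∀ q : ℕ, q.Prime → (4 : ℤ) ∣ padicValRat q l) :
    ∃ w : ℚ, w ≠ 0 ∧ (l = w ^ 4 ∨ l = - w ^ 4) := by
  obtain ⟨w, hw, h1⟩ := exists_rat_of_val ((l.num.natAbs * l.den).primeFactors)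
    (fun q hq => Nat.prime_of_mem_primeFactors hq) (fun q => padicValRat q l / 4)
  refine ⟨w, hw, eq_or_neg_of_padicValRat hl (pow_ne_zero 4 hw) fun q hq => ?_⟩
  have : Fact q.Prime := ⟨hq⟩
  rw [padicValRat.pow, h1 q hq]
  split_ifs with hm
  · have := Int.ediv_mul_cancel (h q hq)
    push_cast
    linarith
  · rw [mul_zero]
    have h2 : l.num.natAbs * l.den ≠ 0 :=
      mul_ne_zero (Int.natAbs_ne_zero.mpr (Rat.num_ne_zero.mpr hl)) l.den_nz
    rw [Nat.mem_primeFactors] at hm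
    have h3 : ¬ q ∣ l.num.natAbs * l.den := fun h => hm ⟨hq, h, h2⟩
    rw [padicValRat_def, padicValInt, padicValNat.eq_zero_of_not_dvd fun h => h3 (h.mul_right _),
      padicValNat.eq_zero_of_not_dvd fun h => h3 (h.mul_left _)]
    simp

/-! ### Coprimality -/

section Cop

variable {A B : ℤ} {q : ℕ}

/-- at most one of the three differences is divisible by a given prime. -/
lemma eq_of_dvd_of_dvd (hc : IsCoprime A B) (hq : q.Prime) {i j : Fin 3}
    (hi : (q : ℤ) ∣ eZ A B (i + 1) - eZ A B (i + 2))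
    (hj : (q : ℤ) ∣ eZ A B (j + 1) - eZ A B (j + 2)) : i = j := by
  have hcop : ∀ x y : ℤ, (q : ℤ) ∣ x → (q : ℤ) ∣ y → IsCoprime x y → False := by
    intro x y hx hy hxy
    have h1 := Int.isUnit_iff.mp (hxy.isUnit_of_dvd' hx hy)
    have h2 := hq.two_le
    omega
  have key : (q : ℤ) ∣ A → (q : ℤ) ∣ B → False := fun h h' => hcop A B h h' hc
  fin_cases i <;> fin_cases j <;> first
    | rfl
    | (exfalso
       simp [eZ] at hi hj
       first
        | exact key hi hj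
        | exact key hj hi
        | exact key hi ((Int.dvd_add_right hi).mp hj)
        | exact key hj ((Int.dvd_add_right hj).mp hi)
        | exact key ((Int.dvd_add_left hi).mp hj) hi
        | exact key ((Int.dvd_add_left hj).mp hi) hj)

lemma exists_not_dvd (hc : IsCoprime A B) {A' B' : ℤ} (hc' : IsCoprime A' B') (hq : q.Prime) :
    ∃ i : Fin 3, ¬ (q : ℤ) ∣ eZ A B (i + 1) - eZ A B (i + 2) ∧
      ¬ (q : ℤ) ∣ eZ A' B' (i + 1) - eZ A' B' (i + 2) := by
  by_contra hcon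
  push Not at hcon
  have h : ∀ i : Fin 3, (q : ℤ) ∣ eZ A B (i + 1) - eZ A B (i + 2) ∨
      (q : ℤ) ∣ eZ A' B' (i + 1) - eZ A' B' (i + 2) := fun i => by
    by_cases h1 : (q : ℤ) ∣ eZ A B (i + 1) - eZ A B (i + 2)
    · exact Or.inl h1
    · exact Or.inr (hcon i h1)
  have k := fun i j hi hj => eq_of_dvd_of_dvd (i := i) (j := j) hc hq hi hj
  have k' := fun i j hi hj => eq_of_dvd_of_dvd (i := i) (j := j) hc' hq hi hj
  rcases h 0 with h0 | h0 <;> rcases h 1 with h1 | h1 <;> rcases h 2 with h2 | h2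
  · exact absurd (k 0 1 h0 h1) (by decide)
  · exact absurd (k 0 1 h0 h1) (by decide)
  · exact absurd (k 0 2 h0 h2) (by decide)
  · exact absurd (k' 1 2 h1 h2) (by decide)
  · exact absurd (k 1 2 h1 h2) (by decide)
  · exact absurd (k' 0 2 h0 h2) (by decide)
  · exact absurd (k' 0 1 h0 h1) (by decide)
  · exact absurd (k' 0 1 h0 h1) (by decide)

end Cop

/-! ### The primitive triple -/

/-- The primitive triple proportional to `((e_{i+1} - e_{i+2})^p D_i^4)`. -/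
structure NData (p : ℕ) (A B : ℤ) (D : Fin 3 → ℚ) where
  w : ℚ
  w0 : w ≠ 0
  A' : ℤ
  B' : ℤ
  cop : IsCoprime A' B'
  rel : ∀ i, ((eZ A' B' (i + 1) - eZ A' B' (i + 2) : ℤ) : ℚ) * w ^ 4 =
    ((eZ A B (i + 1) - eZ A B (i + 2) : ℤ) : ℚ) ^ p * D i ^ 4

theorem val_of_not_dvd {q : ℕ} {n : ℤ} (h : ¬ (q : ℤ) ∣ n) : padicValRat q (n : ℚ) = 0 := by
  rw [padicValRat.of_int]
  exact_mod_cast padicValInt.eq_zero_of_not_dvd h

theorem exists_nData {p : ℕ} {A B : ℤ} {D : Fin 3 → ℚ} (hp : Odd p) (hT : IsTri p A B)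
    (hD : ∀ i, D i ≠ 0)
    (hrel : (A + B : ℚ) ^ p * D 0 ^ 4 = (B : ℚ) ^ p * D 1 ^ 4 + (A : ℚ) ^ p * D 2 ^ 4) :
    Nonempty (NData p A B D) := by
  have hA0 : (A : ℚ) ≠ 0 := by exact_mod_cast hT.A0
  obtain ⟨a, b, l, hl, hx, hy, hab⟩ := exists_primitive (x := (A : ℚ) ^ p * D 2 ^ 4)
    (y := (B : ℚ) ^ p * D 1 ^ 4) (mul_ne_zero (pow_ne_zero _ hA0) (pow_ne_zero _ (hD 2)))
  have hr : ∀ i, ((eZ a b (i + 1) - eZ a b (i + 2) : ℤ) : ℚ) * l =
      ((eZ A B (i + 1) - eZ A B (i + 2) : ℤ) : ℚ) ^ p * D i ^ 4 := by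
    intro i
    fin_cases i
    · simp only [eZ, Fin.zero_eta, Fin.isValue, zero_add, Matrix.cons_val_one,
        Matrix.cons_val_zero, Matrix.cons_val, sub_neg_eq_add]
      push_cast
      rw [hrel, hx, hy]; ring
    · simp only [eZ, Fin.mk_one, Fin.isValue, Fin.reduceAdd, Matrix.cons_val, Matrix.cons_val_zero,
        sub_zero]
      push_cast
      rw [hp.neg_pow]; linear_combination hy
    · simp only [eZ, Fin.reduceFinMk, Fin.isValue, Fin.reduceAdd, Matrix.cons_val_zero,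
        Matrix.cons_val_one, zero_sub]
      push_cast
      rw [hp.neg_pow]; linear_combination hx
  obtain ⟨w, hw, h⟩ := exists_pow_four hl fun q hq => by
    have : Fact q.Prime := ⟨hq⟩
    obtain ⟨i, h1, h2⟩ := exists_not_dvd hT.cop hab hq
    have h3 := congrArg (padicValRat q) (hr i)
    have n1 : ((eZ a b (i + 1) - eZ a b (i + 2) : ℤ) : ℚ) ≠ 0 := by
      intro h0
      apply h2
      have : eZ a b (i + 1) - eZ a b (i + 2) = 0 := by exact_mod_cast h0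
      rw [this]; exact dvd_zero _
    have n2 : ((eZ A B (i + 1) - eZ A B (i + 2) : ℤ) : ℚ) ≠ 0 := by
      exact_mod_cast eZ_ne hT i
    rw [padicValRat.mul n1 hl, padicValRat.mul (pow_ne_zero _ n2) (pow_ne_zero _ (hD i)),
      padicValRat.pow, padicValRat.pow, val_of_not_dvd h1, val_of_not_dvd h2, zero_add, mul_zero,
      zero_add] at h3
    rw [h3]
    exact dvd_mul_right _ _
  rcases h with h | h
  · exact ⟨⟨w, hw, a, b, hab, fun i => by rw [← h]; exact hr i⟩⟩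
  · refine ⟨⟨w, hw, -a, -b, hab.neg_neg, fun i => ?_⟩⟩
    rw [← hr i, h]
    have : eZ (-a) (-b) (i + 1) - eZ (-a) (-b) (i + 2) = - (eZ a b (i + 1) - eZ a b (i + 2)) := by
      fin_cases i
      · simp [eZ]; ring
      · simp [eZ]
      · simp [eZ]
    rw [this]
    push_cast; ring

/-! ### The differences of squares -/

section Vout

variable {p : ℕ} {A B : ℤ} {G : GalData p (eZ A B)} (V : VeluOut p (eZ A B) G)

include V in
theorem U_sub (hp : p.Prime) (hp2 : p ≠ 2) (i : Fin 3) {k : ℕ} (hk : ¬ p ∣ k) :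
    (V.U i k ^ 2 - V.U (i + 1) k ^ 2) * (V.D (i + 1) ^ 2 * V.D i ^ 2) =
      ((eZ A B (i + 1) - eZ A B i : ℤ) : ℚ) ^ p * V.D (i + 2) ^ 2 := by
  obtain ⟨m, rfl⟩ : ∃ m, p = 2 * m + 1 := hp.odd_of_ne_two hp2
  set e' : Fin 3 → Qb := fun i => (eZ A B i : Qb) with he'
  have hV : IsLeg ((leg (fun i => (eZ A B i : ℚ)))⁄Qb) e' := isLeg_Qb (eZ A B)
  have hG := G.hg
  have hG' : ∀ j, 0 < j → j < 2 * m + 1 → j • G.g ≠ 0 := fun j h1 h2 =>
    nsmul_ne_zero_of_lt hp hG G.hg0 h1 (by omega)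
  have hD : ∀ i, ((V.D i : ℚ) : Qb) = vD e' G.g m i := by
    intro i
    rw [V.D_spec, show (2 * m + 1 - 1) / 2 = m by omega]
    rfl
  have hS : ∀ j : ℕ, k • G.r + j • G.g ≠ 0 := fun j => coset_ne_zero hp G.hr G.hrg hk j
  have hS2 : ∀ j : ℕ, k • G.r + k • G.r + j • G.g ≠ 0 := fun j => by
    have h2k : ¬ (2 * m + 1) ∣ 2 * k := by
      intro h
      rcases hp.dvd_mul.mp h with h | h
      · have := Nat.le_of_dvd (by norm_num) h
        have := hp.two_le
        omega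
      · exact hk h
    have := coset_ne_zero hp G.hr G.hrg h2k j
    rwa [two_mul, add_nsmul] at this
  have hρ : ∀ i, vρ e' G.g m i (k • G.r) = ((V.U i k : ℚ) : Qb) ^ 2 := by
    intro i
    rw [vρ, ← V.U_spec i k hk, ← hD, mul_div_assoc, div_self, mul_one]
    exact pow_ne_zero 2 (by exact_mod_cast V.D_ne i)
  have h := vρ_sub₁ hV hG hG' hS hS2 i
  rw [hρ, hρ, ← hD, ← hD, ← hD] at h
  apply (algebraMap ℚ Qb).injective
  simp only [map_sub, map_pow, map_mul, eq_ratCast, Rat.cast_intCast, Int.cast_sub]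
  exact h

include V in
/-- `U_i(k)²` only depends on `k` modulo `p`. -/
theorem U_sq_congr (i : Fin 3) {k k' : ℕ} (hk : ¬ p ∣ k) (hk' : ¬ p ∣ k')
    (h : k • G.r = k' • G.r) : V.U i k ^ 2 = V.U i k' ^ 2 := by
  have h1 := V.U_spec i k hk
  rw [h, ← V.U_spec i k' hk'] at h1
  have h2 : ((V.D i : ℚ) : Qb) ^ 2 ≠ 0 := pow_ne_zero 2 (by exact_mod_cast V.D_ne i)
  have h3 := mul_right_cancel₀ h2 h1
  exact_mod_cast h3

variable {V}

/-- The square roots of `X - e'_i` on the curve attached to the primitive triple. -/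
noncomputable def NData.Y (N : NData p A B V.D) (l : Fin 3) (k : ℕ) : ℚ :=
  V.D 0 * V.D 1 * V.D 2 / N.w ^ 2 * V.U l k

variable (N : NData p A B V.D)

theorem NData.u_ne : V.D 0 * V.D 1 * V.D 2 / N.w ^ 2 ≠ 0 :=
  div_ne_zero (mul_ne_zero (mul_ne_zero (V.D_ne 0) (V.D_ne 1)) (V.D_ne 2)) (pow_ne_zero 2 N.w0)

theorem NData.Y_ne (l : Fin 3) {k : ℕ} (hk : ¬ p ∣ k) : N.Y l k ≠ 0 :=
  mul_ne_zero N.u_ne (V.U_ne l k hk)

theorem NData.Y_sub (hp : p.Prime) (hp2 : p ≠ 2) (i : Fin 3) {k : ℕ} (hk : ¬ p ∣ k) :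
    N.Y i k ^ 2 - N.Y (i + 1) k ^ 2 = ((eZ N.A' N.B' (i + 1) - eZ N.A' N.B' i : ℤ) : ℚ) := by
  have h1 := U_sub V hp hp2 i hk
  have h2 := N.rel (i + 2)
  have r1 : i + 2 + 1 = i := by rw [add_assoc]; exact add_zero i
  have r2 : i + 2 + 2 = i + 1 := by rw [add_assoc]; rfl
  rw [r1, r2] at h2
  have hprod : V.D 0 * V.D 1 * V.D 2 = V.D i * V.D (i + 1) * V.D (i + 2) := prod_rot V.D i
  have hodd : Odd p := hp.odd_of_ne_two hp2
  have e1 : ((eZ A B (i + 1) - eZ A B i : ℤ) : ℚ) ^ p = - ((eZ A B i - eZ A B (i + 1) : ℤ) : ℚ) ^ p := by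
    rw [← hodd.neg_pow]; push_cast; ring
  have e2 : ((eZ N.A' N.B' (i + 1) - eZ N.A' N.B' i : ℤ) : ℚ) =
      - ((eZ N.A' N.B' i - eZ N.A' N.B' (i + 1) : ℤ) : ℚ) := by
    push_cast; ring
  rw [e1] at h1
  have hw : N.w ^ 4 ≠ 0 := pow_ne_zero 4 N.w0
  rw [NData.Y, NData.Y, hprod, e2]
  have h3 : (V.D i * V.D (i + 1) * V.D (i + 2) / N.w ^ 2 * V.U i k) ^ 2 -
      (V.D i * V.D (i + 1) * V.D (i + 2) / N.w ^ 2 * V.U (i + 1) k) ^ 2 =
      ((V.U i k ^ 2 - V.U (i + 1) k ^ 2) * (V.D (i + 1) ^ 2 * V.D i ^ 2)) * V.D (i + 2) ^ 2 /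
        N.w ^ 4 := by
    have := N.w0
    field_simp
  rw [h3, h1, div_eq_iff hw]
  linear_combination h2

theorem NData.Y_rel (i : Fin 3) {k : ℕ} (hk : ¬ p ∣ k) :
    N.Y i (2 * k) + N.Y (i + 1) (2 * k) = N.Y i k * N.Y (i + 1) k / N.Y (i + 2) k := by
  have h := V.rel i k hk
  have hu := N.u_ne
  have hU := V.U_ne (i + 2) k hk
  simp only [NData.Y]
  rw [← mul_add, h]
  generalize V.D 0 * V.D 1 * V.D 2 / N.w ^ 2 = u at hu
  field_simp

theorem NData.Y_sq_congr (i : Fin 3) {k k' : ℕ} (hk : ¬ p ∣ k) (hk' : ¬ p ∣ k')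
    (h : k • G.r = k' • G.r) : N.Y i k ^ 2 = N.Y i k' ^ 2 := by
  rw [NData.Y, NData.Y, mul_pow, mul_pow, U_sq_congr V i hk hk' h]

end Vout

end Fermat.Agent.Mazur.S12
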