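import Fermat.Agent.Mazur.S12.Triple

/-!
# Valuations for the isogenous curve
-/

set_option autoImplicit false
set_option linter.unusedSectionVars false

namespace Fermat.Agent.Mazur.S12

open WeierstrassCurve WeierstrassCurve.Affine Fermat.Agent.Descent

local notation "Qb" => AlgebraicClosure ℚ

section

variable {p : ℕ} {A B : ℤ} {G : GalData p (eZ A B)} {V : VeluOut p (eZ A B) G}
  (N : NData p A B V.D)

lemma eZ_prod_dvd {A B : ℤ} {n : ℤ} (i : Fin 3) (h : n ∣ eZ A B (i + 1) - eZ A B (i + 2)) :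
    n ∣ A * B * (A + B) := by
  fin_cases i
  · simp only [eZ, Fin.zero_eta, Fin.isValue, zero_add, Matrix.cons_val_one,
      Matrix.cons_val_zero, Matrix.cons_val, sub_neg_eq_add] at h
    exact h.mul_left _
  · simp only [eZ, Fin.mk_one, Fin.isValue, Fin.reduceAdd, Matrix.cons_val, Matrix.cons_val_zero,
      sub_zero, dvd_neg] at h
    exact (h.mul_left _).mul_right _
  · simp only [eZ, Fin.reduceFinMk, Fin.isValue, Fin.reduceAdd, Matrix.cons_val_zero,
      Matrix.cons_val_one, zero_sub, dvd_neg] at h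
    exact (h.mul_right _).mul_right _

lemma exists_dvd_of_prod_dvd {A B : ℤ} {q : ℕ} (hq : q.Prime) (h : (q : ℤ) ∣ A * B * (A + B)) :
    ∃ i : Fin 3, (q : ℤ) ∣ eZ A B (i + 1) - eZ A B (i + 2) := by
  have hq' := Nat.prime_iff_prime_int.mp hq
  rcases hq'.dvd_or_dvd h with h1 | h1
  · rcases hq'.dvd_or_dvd h1 with h2 | h2
    · exact ⟨2, by simpa [eZ] using h2⟩
    · exact ⟨1, by simpa [eZ] using h2⟩
  · exact ⟨0, by simpa [eZ] using h1⟩

include N in
theorem NData.diff_ne (hT : IsTri p A B) (i : Fin 3) :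
    eZ N.A' N.B' (i + 1) - eZ N.A' N.B' (i + 2) ≠ 0 := by
  intro h
  have h1 := N.rel i
  rw [h, Int.cast_zero, zero_mul] at h1
  exact mul_ne_zero (pow_ne_zero p (by exact_mod_cast eZ_ne hT i)) (pow_ne_zero 4 (V.D_ne i)) h1.symm

/-- valuations of the defining relation of the primitive triple -/
theorem NData.val_rel (hT : IsTri p A B) {q : ℕ} (hq : q.Prime) (i : Fin 3) :
    (padicValInt q (eZ N.A' N.B' (i + 1) - eZ N.A' N.B' (i + 2)) : ℤ) + 4 * padicValRat q N.w =
      p * padicValInt q (eZ A B (i + 1) - eZ A B (i + 2)) + 4 * padicValRat q (V.D i) := by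
  have : Fact q.Prime := ⟨hq⟩
  have h1 := congrArg (padicValRat q) (N.rel i)
  rw [padicValRat.mul (by exact_mod_cast N.diff_ne hT i) (pow_ne_zero 4 N.w0),
    padicValRat.mul (pow_ne_zero p (by exact_mod_cast eZ_ne hT i)) (pow_ne_zero 4 (V.D_ne i)),
    padicValRat.pow, padicValRat.pow, padicValRat.pow, padicValRat.of_int, padicValRat.of_int] at h1
  exact_mod_cast h1

theorem NData.val_Y {q : ℕ} (hq : q.Prime) (l : Fin 3) {k : ℕ} (hk : ¬ p ∣ k) :
    padicValRat q (N.Y l k) = padicValRat q (V.D 0) + padicValRat q (V.D 1) +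
      padicValRat q (V.D 2) - 2 * padicValRat q N.w + padicValRat q (V.U l k) := by
  have : Fact q.Prime := ⟨hq⟩
  rw [NData.Y, padicValRat.mul N.u_ne (V.U_ne l k hk),
    padicValRat.div (mul_ne_zero (mul_ne_zero (V.D_ne 0) (V.D_ne 1)) (V.D_ne 2))
      (pow_ne_zero 2 N.w0), padicValRat.mul (mul_ne_zero (V.D_ne 0) (V.D_ne 1)) (V.D_ne 2),
    padicValRat.mul (V.D_ne 0) (V.D_ne 1), padicValRat.pow]
  push_cast; ring

/-- at most one of the valuations is nonzero -/
theorem NData.val_eq_zero_or {q : ℕ} (hq : q.Prime) {i j : Fin 3} (hij : i ≠ j) :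
    padicValInt q (eZ N.A' N.B' (i + 1) - eZ N.A' N.B' (i + 2)) = 0 ∨
    padicValInt q (eZ N.A' N.B' (j + 1) - eZ N.A' N.B' (j + 2)) = 0 := by
  by_contra hcon
  rw [not_or] at hcon
  have key : ∀ n : ℤ, padicValInt q n ≠ 0 → (q : ℤ) ∣ n := fun n hn => by
    by_contra h
    exact hn (padicValInt.eq_zero_of_not_dvd h)
  exact hij (eq_of_dvd_of_dvd N.cop hq (key _ hcon.1) (key _ hcon.2))

/-- The three alternatives at an odd prime. -/
theorem NData.odd_alt (hp : p.Prime) (hp2 : p ≠ 2) (hT : IsTri p A B) {q : ℕ} (hq : q.Prime)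
    (hq2 : q ≠ 2) :
    ((∀ a b, padicValRat q (V.D a) = padicValRat q (V.D b)) ∧
      ∀ l k, ¬ p ∣ k → padicValRat q (N.Y l k) = 0) ∨
    ((∀ a b, padicValRat q (V.D a) = padicValRat q (V.D b)) ∧
      (q : ℤ) ∣ N.A' * N.B' * (N.A' + N.B')) ∨
    (q ≠ p ∧ (q : ℤ) ∣ N.A' * N.B' * (N.A' + N.B') ∧
      ∀ l k, ¬ p ∣ k → padicValRat q (N.Y l k) = 0) := by
  have hf : Fact q.Prime := ⟨hq⟩
  have key : ∀ n : ℤ, (0 : ℤ) < padicValInt q n → (q : ℤ) ∣ n := fun n hn => by
    by_contra h
    rw [padicValInt.eq_zero_of_not_dvd h] at hn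
    simp at hn
  have hzero : ∀ n : ℤ, ¬ (q : ℤ) ∣ n → padicValInt q n = 0 := fun n hn =>
    padicValInt.eq_zero_of_not_dvd hn
  have hpos := hp.pos
  by_cases hnd : (q : ℤ) ∣ A * B * (A + B)
  · obtain ⟨i, hi⟩ := exists_dvd_of_prod_dvd hq hnd
    obtain ⟨n1, n2⟩ := not_dvd_of_dvd hT hq i hi
    have r1 : i + 1 + 1 = i + 2 := by rw [add_assoc]; rfl
    have r2 : i + 1 + 2 = i := by rw [add_assoc]; exact add_zero i
    have r3 : i + 2 + 1 = i := by rw [add_assoc]; exact add_zero i
    have r4 : i + 2 + 2 = i + 1 := by rw [add_assoc]; rfl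
    have f0 := N.val_rel hT hq i
    have f1 := N.val_rel hT hq (i + 1)
    have f2 := N.val_rel hT hq (i + 2)
    have h12 := N.val_eq_zero_or hq (fin3_ne₁₂ i)
    rw [r1, r2] at f1 h12
    rw [r3, r4] at f2 h12
    have z1 : padicValInt q (eZ A B (i + 2) - eZ A B i) = 0 := by
      apply hzero
      rwa [dvd_sub_comm]
    have z2 : padicValInt q (eZ A B i - eZ A B (i + 1)) = 0 := hzero _ n1
    rw [z1] at f1
    rw [z2] at f2
    have hγ : 1 ≤ padicValInt q (eZ A B (i + 1) - eZ A B (i + 2)) := by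
      rw [Nat.one_le_iff_ne_zero]
      intro h0
      have h1 := (padicValInt_dvd_iff 1 (eZ A B (i + 1) - eZ A B (i + 2))).mp
        (by rw [pow_one]; exact hi)
      rcases h1 with h1 | h1
      · exact eZ_ne hT i h1
      · omega
    have hY := fun l k (hk : ¬ p ∣ k) => N.val_Y hq l hk
    have hsum : padicValRat q (V.D 0) + padicValRat q (V.D 1) + padicValRat q (V.D 2) =
        padicValRat q (V.D i) + padicValRat q (V.D (i + 1)) + padicValRat q (V.D (i + 2)) :=
      sum_rot (fun i => padicValRat q (V.D i)) i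
    rcases locMult' hp hp2 hT G V hq hq2 i hi with ⟨hD, -⟩ | ⟨hqp, hU, hDi, hD1, hD2⟩
    · right; left
      refine ⟨hD, eZ_prod_dvd i (key _ ?_)⟩
      rw [hD i 0] at f0
      rw [hD (i + 1) 0] at f1
      rw [hD (i + 2) 0] at f2
      have : padicValRat q N.w = padicValRat q (V.D 0) := by
        rcases h12 with h | h
        · rw [h] at f1; push_cast at f1; linarith
        · rw [h] at f2; push_cast at f2; linarith
      rw [this] at f0
      have : (padicValInt q (eZ N.A' N.B' (i + 1) - eZ N.A' N.B' (i + 2)) : ℤ) =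
        p * padicValInt q (eZ A B (i + 1) - eZ A B (i + 2)) := by linarith
      rw [this]
      positivity
    · right; right
      have hδ : padicValRat q (V.D (i + 1)) = padicValRat q (V.D (i + 2)) := by
        have h4 : (4 * p : ℤ) ≠ 0 := by positivity
        exact mul_left_cancel₀ h4 (hD1.trans hD2.symm)
      rw [← hδ] at f2
      have hω : padicValRat q N.w = padicValRat q (V.D (i + 1)) := by
        rcases h12 with h | h
        · rw [h] at f1; push_cast at f1; linarith
        · rw [h] at f2; push_cast at f2; linarith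
      refine ⟨hqp, eZ_prod_dvd i (key _ ?_), fun l k hk => ?_⟩
      · rw [hω, hDi] at f0
        have h5 : (p : ℤ) * padicValInt q (eZ N.A' N.B' (i + 1) - eZ N.A' N.B' (i + 2)) =
            padicValInt q (eZ A B (i + 1) - eZ A B (i + 2)) := by
          linear_combination (p : ℤ) * f0 - hD1
        have h6 : (0 : ℤ) < p * padicValInt q (eZ N.A' N.B' (i + 1) - eZ N.A' N.B' (i + 2)) := by
          rw [h5]; exact_mod_cast hγ
        exact (mul_pos_iff_of_pos_left (by exact_mod_cast hpos)).mp h6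
      · rw [hY l k hk, hsum, hU l k hk, hω, hDi, ← hδ]
        ring
  · left
    obtain ⟨hD, hU⟩ := locGood' hp hp2 G V hq hq2 hnd
    refine ⟨hD, fun l k hk => ?_⟩
    have f0 := N.val_rel hT hq 0
    have f1 := N.val_rel hT hq 1
    have h01 := N.val_eq_zero_or hq (i := 0) (j := 1) (by decide)
    have z : ∀ i : Fin 3, padicValInt q (eZ A B (i + 1) - eZ A B (i + 2)) = 0 := fun i =>
      hzero _ fun h => hnd (eZ_prod_dvd i h)
    rw [z] at f0 f1
    rw [hD 1 0] at f1
    have hω : padicValRat q N.w = padicValRat q (V.D 0) := by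
      rcases h01 with h | h
      · rw [h] at f0; push_cast at f0; linarith
      · rw [h] at f1; push_cast at f1; linarith
    rw [N.val_Y hq l hk, hU l k hk, hω, hD 1 0, hD 2 0]
    ring

end

end Fermat.Agent.Mazur.S12
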