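import Fermat.Agent.Mazur.S12.Val
import Fermat.Agent.Mazur.ZeroComp

/-!
# S15 for the isogenous curve, and the end of the proof of S12

* `val_D_eq`: all `v_q(D_a)` are equal for every odd prime `q`;
* `false_of_val`: the size contradiction.
-/

set_option autoImplicit false
set_option linter.unusedSectionVars false

namespace Fermat.Agent.Mazur.S12

open WeierstrassCurve WeierstrassCurve.Affine Fermat.Agent.Descent Fermat.Agent.LOC
open Fermat.Agent.ECRed hiding xc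

local notation "Qb" => AlgebraicClosure ℚ

/-- The statement S15. -/
def S15Prop : Prop :=
  ∀ {p : ℕ} (_ : p.Prime) (_ : p ∉ ({2, 3, 5, 7, 13} : Finset ℕ))
    (W : WeierstrassCurve ℤ) (_ : W.Δ ≠ 0)
    (Q : ((W.map (Int.castRingHom ℚ))⁄(AlgebraicClosure ℚ)).Point)
    (_ : ∀ σ : AlgebraicClosure ℚ ≃ₐ[ℚ] AlgebraicClosure ℚ, σ • Q = Q)
    (_ : addOrderOf Q = p)
    (_ : (2 : ℤ) ∣ W.Δ) (_ : ¬ (2 : ℤ) ∣ W.c₄)
    (_ : ∀ A : ValuationSubring (AlgebraicClosure ℚ), A.LiesOverPrime 2 →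
      ¬ W.InZeroComponentAt A Q)
    (_ : (3 : ℤ) ∣ W.Δ) (_ : ¬ (3 : ℤ) ∣ W.c₄)
    (_ : ∀ A : ValuationSubring (AlgebraicClosure ℚ), A.LiesOverPrime 3 →
      ¬ W.InZeroComponentAt A Q)
    {ℓ : ℕ} (_ : ℓ.Prime) (_ : ℓ ≠ p) (_ : (ℓ : ℤ) ∣ W.Δ) (_ : ¬ (ℓ : ℤ) ∣ W.c₄)
    (A : ValuationSubring (AlgebraicClosure ℚ)) (_ : A.LiesOverPrime ℓ),
    ¬ W.InZeroComponentAt A Q

/-! ### The curve `freyZ A' B'` -/

section Curve

variable {A B : ℤ}

theorem freyZ_Δ_ne_zero (hA : A % 4 = 3) (hB : (32 : ℤ) ∣ B) (h0 : A * B * (A + B) ≠ 0) :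
    (freyZ A B).Δ ≠ 0 := by
  intro h
  have h1 := freyZ_Δ hA hB
  rw [h, mul_zero] at h1
  exact h0 (pow_eq_zero_iff two_ne_zero |>.mp h1.symm)

theorem dvd_freyZ_Δ (hA : A % 4 = 3) (hB : (32 : ℤ) ∣ B) {q : ℕ} (hq : q.Prime) (hq2 : q ≠ 2)
    (h : (q : ℤ) ∣ A * B * (A + B)) : (q : ℤ) ∣ (freyZ A B).Δ := by
  have h1 : (q : ℤ) ∣ 256 * (freyZ A B).Δ := by
    rw [freyZ_Δ hA hB]
    exact h.trans (dvd_pow_self _ two_ne_zero)
  refine ((Nat.prime_iff_prime_int.mp hq).dvd_or_dvd h1).resolve_left fun h2 => hq2 ?_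
  have h3 : q ∣ 2 ^ 8 := by exact_mod_cast h2
  exact (Nat.prime_dvd_prime_iff_eq hq Nat.prime_two).mp (hq.dvd_of_dvd_pow h3)

theorem two_dvd_freyZ_Δ (hA : A % 4 = 3) (hB : (32 : ℤ) ∣ B) : (2 : ℤ) ∣ (freyZ A B).Δ := by
  have h1 := freyZ_Δ hA hB
  obtain ⟨b, rfl⟩ := hB
  refine ⟨2 * (A * b * (A + 32 * b)) ^ 2, ?_⟩
  have h2 : (A * (32 * b) * (A + 32 * b)) ^ 2 = 256 * (2 * (2 * (A * b * (A + 32 * b)) ^ 2)) := by
    ring
  rw [h2] at h1
  exact mul_left_cancel₀ (by norm_num) h1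

theorem not_two_dvd_freyZ_c₄ (hA : A % 4 = 3) (hB : (32 : ℤ) ∣ B) :
    ¬ (2 : ℤ) ∣ (freyZ A B).c₄ := by
  rw [freyZ_c₄ hA hB]
  obtain ⟨b, rfl⟩ := hB
  intro h
  have h2 : (2 : ℤ) ∣ A ^ 2 := by
    have e : A ^ 2 = (A ^ 2 + A * (32 * b) + (32 * b) ^ 2) - 2 * (16 * A * b + 512 * b ^ 2) := by
      ring
    rw [e]
    exact dvd_sub h (dvd_mul_right _ _)
  have h3 := Int.prime_two.dvd_of_dvd_pow h2
  omega

theorem not_dvd_freyZ_c₄ (hA : A % 4 = 3) (hB : (32 : ℤ) ∣ B) (hc : IsCoprime A B) {q : ℕ}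
    (hq : q.Prime) (h : (q : ℤ) ∣ A * B * (A + B)) : ¬ (q : ℤ) ∣ (freyZ A B).c₄ := by
  intro hc4
  have hq' : Prime (q : ℤ) := Nat.prime_iff_prime_int.1 hq
  rw [freyZ_c₄ hA hB] at hc4
  have key : (q : ℤ) ∣ A → (q : ℤ) ∣ B → False := fun hA hB =>
    hq'.not_isUnit (hc.isUnit_of_dvd' hA hB)
  rcases hq'.dvd_or_dvd h with h1 | h1
  · rcases hq'.dvd_or_dvd h1 with h1 | h1
    · refine key h1 (hq'.dvd_of_dvd_pow (n := 2) ?_)
      have e : B ^ 2 = (A ^ 2 + A * B + B ^ 2) - A * (A + B) := by ring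
      rw [e]
      exact dvd_sub hc4 (h1.mul_right _)
    · refine key (hq'.dvd_of_dvd_pow (n := 2) ?_) h1
      have e : A ^ 2 = (A ^ 2 + A * B + B ^ 2) - B * (A + B) := by ring
      rw [e]
      exact dvd_sub hc4 (h1.mul_right _)
  · have h2 : (q : ℤ) ∣ A * B := by
      have e : A * B = (A + B) * (A + B) - (A ^ 2 + A * B + B ^ 2) := by ring
      rw [e]
      exact dvd_sub (h1.mul_right _) hc4
    rcases hq'.dvd_or_dvd h2 with h3 | h3
    · exact key h3 (by simpa using dvd_sub h1 h3)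
    · exact key (by simpa using dvd_sub h1 h3) h3

end Curve

/-! ### Points in the zero component -/

section Zero

variable {A B : ℤ}

/-- multiples of points of the zero component -/
theorem inZeroComponentAt_nsmul (W : WeierstrassCurve ℤ) (𝔓 : ValuationSubring Qb)
    {P : ((W.map (Int.castRingHom ℚ))⁄Qb).Point} (h : W.InZeroComponentAt 𝔓 P) (m : ℕ) :
    W.InZeroComponentAt 𝔓 (m • P) := by
  classical
  rw [inZeroComponentAt_iff] at h ⊢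
  exact AddSubgroup.nsmul_mem _ h m

/-- A point with `2 y + x` a unit is in the zero component. -/
theorem inZeroComponentAt_of_unit {𝔓 : ValuationSubring Qb} {q : ℕ} (hq : q.Prime) (hq2 : q ≠ 2)
    (h𝔓 : 𝔓.LiesOverPrime q) {P : (((freyZ A B).map (Int.castRingHom ℚ))⁄Qb).Point} {x y : Qb}
    {h : (((freyZ A B).map (Int.castRingHom ℚ))⁄Qb).toAffine.Nonsingular x y}
    (hP : P = .some x y h) {s : ℚ} (hs0 : s ≠ 0) (hs : padicValRat q s = 0)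
    (hxy : (4 * (2 * y + x)) ^ 2 = ((s : ℚ) : Qb) ^ 2) : (freyZ A B).InZeroComponentAt 𝔓 P := by
  classical
  have : Fact q.Prime := ⟨hq⟩
  have hv2 := v_two_eq_one h𝔓 hq hq2
  have hvs : 𝔓.valuation ((s : ℚ) : Qb) = 1 := by
    rw [v_ratCast hq h𝔓 hs0, hs, zpow_zero]
  have hv4 : 𝔓.valuation (4 : Qb) = 1 := by
    have : (4 : Qb) = 2 * 2 := by norm_num
    rw [this, map_mul, hv2, one_mul]
  have h1 := congrArg 𝔓.valuation hxy
  rw [map_pow, map_pow, map_mul, hv4, one_mul, hvs] at h1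
  have h2 := (pow_left_inj₀ zero_le zero_le two_ne_zero).mp h1
  rw [hP, inZeroComponentAt_iff, some_mem_E0_iff_valuation]
  right
  left
  rw [baseChange_int_a₁, baseChange_int_a₃]
  simp only [freyZ_a₁, freyZ_a₃, Int.cast_one, Int.cast_zero, one_mul, add_zero]
  exact h2

end Zero

/-! ### Application of S15 -/

section Main

variable {p : ℕ} {A B : ℤ} {G : GalData p (eZ A B)} {V : VeluOut p (eZ A B) G}
  (N : NData p A B V.D)

include N in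
theorem NData.prod_ne (hT : IsTri p A B) : N.A' * N.B' * (N.A' + N.B') ≠ 0 := by
  have h0 := N.diff_ne hT 0
  have h1 := N.diff_ne hT 1
  have h2 := N.diff_ne hT 2
  simp only [eZ, Fin.isValue, zero_add, Matrix.cons_val_one, Matrix.cons_val_zero,
    Matrix.cons_val, sub_neg_eq_add] at h0
  have h1' : N.B' ≠ 0 := by
    intro h
    apply h1
    simp [eZ, h]
  have h2' : N.A' ≠ 0 := by
    intro h
    apply h2
    simp [eZ, h]
  exact mul_ne_zero (mul_ne_zero h2' h1') h0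

/-- `3` divides the discriminant. -/
theorem NData.three_dvd (hp : p.Prime) (hp3 : 3 < p) (hT : IsTri p A B) :
    (3 : ℤ) ∣ N.A' * N.B' * (N.A' + N.B') := by
  have hp2 : p ≠ 2 := by omega
  have hf : Fact (Nat.Prime 3) := ⟨Nat.prime_three⟩
  have hk : ¬ p ∣ 1 := fun h => by
    have := Nat.le_of_dvd one_pos h
    omega
  rcases N.odd_alt hp hp2 hT Nat.prime_three (by norm_num) with ⟨-, h⟩ | ⟨-, h⟩ | ⟨-, h, -⟩
  swap
  · exact_mod_cast h
  swap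
  · exact_mod_cast h
  -- all `Y_l 1` are units at `3`
  have key : ∀ s : ℚ, s ≠ 0 → padicValRat 3 s = 0 → ∃ a b : ℤ, ¬ (3 : ℤ) ∣ a ∧ ¬ (3 : ℤ) ∣ b ∧
      s * b = a := by
    intro s hs0 hs
    refine ⟨s.num, s.den, ?_, ?_, ?_⟩
    · intro hd
      have h1 : ¬ (3 : ℕ) ∣ s.den := fun hd' => by
        have h2 : (3 : ℕ) ∣ s.num.natAbs := Int.natCast_dvd.mp (by exact_mod_cast hd)
        have h3 := Nat.dvd_gcd h2 hd'
        rw [s.reduced] at h3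
        norm_num at h3
      rw [padicValRat_def, padicValNat.eq_zero_of_not_dvd h1] at hs
      have h4 : 1 ≤ padicValInt 3 s.num := by
        rw [padicValInt]
        exact one_le_padicValNat_of_dvd (Int.natAbs_ne_zero.mpr (Rat.num_ne_zero.mpr hs0))
          (Int.natCast_dvd.mp (by exact_mod_cast hd))
      omega
    · intro hd
      have hd' : (3 : ℕ) ∣ s.den := by exact_mod_cast hd
      have h1 : ¬ (3 : ℕ) ∣ s.num.natAbs := fun h2 => by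
        have h3 := Nat.dvd_gcd h2 hd'
        rw [s.reduced] at h3
        norm_num at h3
      rw [padicValRat_def, padicValInt, padicValNat.eq_zero_of_not_dvd h1] at hs
      have h4 := one_le_padicValNat_of_dvd s.den_nz hd'
      omega
    · push_cast
      exact Rat.mul_den_eq_num s
  obtain ⟨a0, b0, ha0, hb0, e0⟩ := key _ (N.Y_ne 0 hk) (h 0 1 hk)
  obtain ⟨a1, b1, ha1, hb1, e1⟩ := key _ (N.Y_ne 1 hk) (h 1 1 hk)
  have h5 := N.Y_sub hp hp2 0 hk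
  have h6 : ((a0 * b1) ^ 2 - (a1 * b0) ^ 2 : ℚ) =
      ((eZ N.A' N.B' (0 + 1) - eZ N.A' N.B' 0 : ℤ) : ℚ) * (b0 * b1) ^ 2 := by
    rw [← h5, ← e0, ← e1]
    simp only [zero_add]
    ring
  have h7 : (a0 * b1) ^ 2 - (a1 * b0) ^ 2 = N.A' * (b0 * b1) ^ 2 := by
    have e : eZ N.A' N.B' (0 + 1) - eZ N.A' N.B' 0 = N.A' := by simp [eZ]
    rw [e] at h6
    exact_mod_cast h6
  have sq : ∀ x : ℤ, ¬ (3 : ℤ) ∣ x → x ^ 2 % 3 = 1 := by
    intro x hx
    rw [pow_two, Int.mul_emod]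
    have h1 : x % 3 = 1 ∨ x % 3 = 2 := by omega
    rcases h1 with h1 | h1 <;> rw [h1] <;> norm_num
  have p3 : Prime (3 : ℤ) := Int.prime_three
  have m1 := sq (a0 * b1) fun hd => (p3.dvd_or_dvd hd).elim ha0 hb1
  have m2 := sq (a1 * b0) fun hd => (p3.dvd_or_dvd hd).elim ha1 hb0
  have h8 : (3 : ℤ) ∣ N.A' * (b0 * b1) ^ 2 := by
    rw [← h7]
    omega
  rcases p3.dvd_or_dvd h8 with h9 | h9
  · exact (h9.mul_right _).mul_right _
  · exfalso
    exact (p3.dvd_or_dvd (p3.dvd_of_dvd_pow h9)).elim hb0 hb1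

/-- **Application of S15.** -/
theorem NData.val_D_eq (hS15 : S15Prop) (hp : p.Prime) (hp17 : 17 ≤ p) (hT : IsTri p A B)
    (hA4 : N.A' % 4 = 3) (hB32 : (32 : ℤ) ∣ N.B')
    (hpt : ∃ (P : (((freyZ N.A' N.B').map (Int.castRingHom ℚ))⁄Qb).Point) (m : ℕ),
      (∀ σ : Qb ≃ₐ[ℚ] Qb, σ • P = P) ∧ addOrderOf (m • P) = p ∧
      ∃ x y h, P = .some x y h ∧ 4 * x = ((N.Y 0 1 : ℚ) : Qb) ^ 2 ∧
        (4 * (2 * y + x)) ^ 2 = (((N.Y 0 1 * N.Y 1 1 * N.Y 2 1 : ℚ)) : Qb) ^ 2)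
    {q : ℕ} (hq : q.Prime) (hq2 : q ≠ 2) (a b : Fin 3) :
    padicValRat q (V.D a) = padicValRat q (V.D b) := by
  have hp2 : p ≠ 2 := by omega
  have hf : Fact q.Prime := ⟨hq⟩
  have hk : ¬ p ∣ 1 := fun h => by
    have := Nat.le_of_dvd one_pos h
    omega
  rcases N.odd_alt hp hp2 hT hq hq2 with ⟨h, -⟩ | ⟨h, -⟩ | ⟨hqp, hqd, h⟩
  · exact h a b
  · exact h a b
  exfalso
  obtain ⟨P, m, hfix, hord, x, y, hxy, hP, -, hY⟩ := hpt
  have hΔ := freyZ_Δ_ne_zero hA4 hB32 (N.prod_ne hT)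
  have h2Δ := two_dvd_freyZ_Δ hA4 hB32
  have h2c := not_two_dvd_freyZ_c₄ hA4 hB32
  have h3 := N.three_dvd hp (by omega) hT
  have h3Δ : (3 : ℤ) ∣ (freyZ N.A' N.B').Δ := by
    exact_mod_cast dvd_freyZ_Δ hA4 hB32 Nat.prime_three (by norm_num) (by exact_mod_cast h3)
  have h3c : ¬ (3 : ℤ) ∣ (freyZ N.A' N.B').c₄ := by
    exact_mod_cast not_dvd_freyZ_c₄ hA4 hB32 N.cop Nat.prime_three (by exact_mod_cast h3)
  have hqΔ := dvd_freyZ_Δ hA4 hB32 hq hq2 hqd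
  have hqc := not_dvd_freyZ_c₄ hA4 hB32 N.cop hq hqd
  have hfixm : ∀ σ : Qb ≃ₐ[ℚ] Qb, σ • (m • P) = m • P := by
    intro σ
    have h4 := map_nsmul (DistribSMul.toAddMonoidHom
      (((freyZ N.A' N.B').map (Int.castRingHom ℚ))⁄Qb).Point σ) m P
    change σ • (m • P) = m • (σ • P) at h4
    rw [h4, hfix]
  have hm0 : m • P ≠ 0 := by
    intro h0
    rw [h0, addOrderOf_zero] at hord
    omega
  have hpm : p • (m • P) = 0 := by
    have h4 := addOrderOf_nsmul_eq_zero (m • P)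
    rwa [hord] at h4
  have hzero : ∀ {ℓ : ℕ}, ℓ.Prime → ℓ ≤ 3 → ((ℓ : ℕ) : ℤ) ∣ (freyZ N.A' N.B').Δ →
      ¬ ((ℓ : ℕ) : ℤ) ∣ (freyZ N.A' N.B').c₄ → ∀ 𝔓 : ValuationSubring Qb, 𝔓.LiesOverPrime ℓ →
      ¬ (freyZ N.A' N.B').InZeroComponentAt 𝔓 (m • P) := by
    intro ℓ hℓ hℓ3 hd hc 𝔓 h𝔓 hZ
    have h1 := ZeroComp.dvd_sub_or_dvd_add (freyZ N.A' N.B') hΔ hℓ hd hc h𝔓 hp (by omega) hpm
      hm0 hfixm hZ
    have h2 := hℓ.two_le
    rcases h1 with h1 | h1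
    · have := Nat.le_of_dvd (by omega) h1
      omega
    · have := Nat.le_of_dvd (by omega) h1
      omega
  obtain ⟨𝔓, h𝔓⟩ := Fermat.Agent.FrobExists.exists_liesOverPrime Qb hq
  refine hS15 hp ?_ (freyZ N.A' N.B') hΔ (m • P) hfixm hord h2Δ h2c
    (fun 𝔓 h𝔓 => hzero Nat.prime_two (by norm_num) (by exact_mod_cast h2Δ)
      (by exact_mod_cast h2c) 𝔓 h𝔓) h3Δ h3c
    (fun 𝔓 h𝔓 => hzero Nat.prime_three (by norm_num) (by exact_mod_cast h3Δ)
      (by exact_mod_cast h3c) 𝔓 h𝔓) hq hqp hqΔ hqc 𝔓 h𝔓 ?_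
  · simp only [Finset.mem_insert, Finset.mem_singleton, not_or]
    omega
  · refine inZeroComponentAt_nsmul _ _ ?_ m
    refine inZeroComponentAt_of_unit hq hq2 h𝔓 hP
      (mul_ne_zero (mul_ne_zero (N.Y_ne 0 hk) (N.Y_ne 1 hk)) (N.Y_ne 2 hk)) ?_ hY
    rw [padicValRat.mul (mul_ne_zero (N.Y_ne 0 hk) (N.Y_ne 1 hk)) (N.Y_ne 2 hk),
      padicValRat.mul (N.Y_ne 0 hk) (N.Y_ne 1 hk), h 0 1 hk, h 1 1 hk, h 2 1 hk]
    norm_num

include V in
/-- **The size contradiction.** -/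
theorem false_of_val (hp : p.Prime) (hp2 : p ≠ 2) (hT : IsTri p A B)
    (h0 : padicValRat 2 (V.D 0) = padicValRat 2 (V.D 1) + (p - 1))
    (h2 : padicValRat 2 (V.D 2) = padicValRat 2 (V.D 1) + (p - 1))
    (hodd : ∀ q : ℕ, q.Prime → q ≠ 2 → ∀ a b : Fin 3,
      padicValRat q (V.D a) = padicValRat q (V.D b)) : False := by
  have hpo : Odd p := hp.odd_of_ne_two hp2
  have hp1 := hp.one_lt
  have hpow : ((2 : ℚ) ^ (p - 1)) ≠ 0 := pow_ne_zero _ two_ne_zero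
  have key : ∀ i : Fin 3, (padicValRat 2 (V.D i) = padicValRat 2 (V.D 1) + (p - 1)) →
      V.D i ^ 4 = 16 ^ (p - 1) * V.D 1 ^ 4 := by
    intro i hi
    have h3 : V.D i = 2 ^ (p - 1) * V.D 1 ∨ V.D i = - (2 ^ (p - 1) * V.D 1) := by
      refine eq_or_neg_of_padicValRat (V.D_ne i) (mul_ne_zero hpow (V.D_ne 1)) fun q hq => ?_
      have : Fact q.Prime := ⟨hq⟩
      rw [padicValRat.mul hpow (V.D_ne 1), padicValRat.pow]
      by_cases hq2 : q = 2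
      · subst hq2
        have h4 : padicValRat 2 (2 : ℚ) = 1 := by
          have := padicValRat.self (p := 2) (by norm_num)
          exact_mod_cast this
        rw [hi, h4]
        push_cast [hp1.le]
        ring
      · have h4 : padicValRat q (2 : ℚ) = 0 := by
          have h5 : padicValRat q ((2 : ℕ) : ℚ) = (padicValNat q 2 : ℤ) := padicValRat.of_nat
          rw [padicValNat.eq_zero_of_not_dvd fun hd =>
            hq2 ((Nat.prime_dvd_prime_iff_eq hq Nat.prime_two).mp hd)] at h5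
          exact_mod_cast h5
        rw [h4, mul_zero, zero_add]
        exact hodd q hq hq2 i 1
    have h16 : (16 : ℚ) ^ (p - 1) = ((2 : ℚ) ^ (p - 1)) ^ 4 := by
      rw [← pow_mul, mul_comm, pow_mul]
      norm_num
    rcases h3 with h3 | h3 <;> rw [h3, h16] <;> ring
  have e0 := key 0 h0
  have e2 := key 2 h2
  have hrel := V.D_rel
  have r0 : ((eZ A B 1 : ℤ) : ℚ) - (eZ A B 2 : ℤ) = (A + B : ℚ) := by simp [eZ]
  have r1 : ((eZ A B 2 : ℤ) : ℚ) - (eZ A B 0 : ℤ) = -(B : ℚ) := by simp [eZ]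
  have r2 : ((eZ A B 0 : ℤ) : ℚ) - (eZ A B 1 : ℤ) = -(A : ℚ) := by simp [eZ]
  rw [r0, r1, r2, hpo.neg_pow, hpo.neg_pow, e0, e2] at hrel
  have hD4 : V.D 1 ^ 4 ≠ 0 := pow_ne_zero 4 (V.D_ne 1)
  have h5 : (16 : ℚ) ^ (p - 1) * ((A + B : ℚ) ^ p - (A : ℚ) ^ p) = (B : ℚ) ^ p := by
    apply mul_right_cancel₀ hD4
    linear_combination hrel
  exact size_contradiction hpo hp1 hT.B0 (by exact_mod_cast h5)

end Main

end Fermat.Agent.Mazur.S12
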